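import Fermat.Agent.RT.LowerP.Hecke
import Fermat.Agent.RT.Mazur.ResidualClass
import Fermat.Agent.RT.Mazur.ResidualExit

/-!
# Reductions with orders divisible by `p` in characteristic `p`

The divisor of a reduction divided by `p` is an eigen class of the reduced curve of level `M`:
either it is zero and the reduction is a `p`-th power, or it lifts to a congruent eigenform of
level `M`. Of `p` only `p ∤ M` is used.
-/

set_option autoImplicit false

noncomputable section

namespace Fermat.Agent.RT.LowerP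

open ModularCurve AlgebraicCurve Fermat.Agent.Semistable Fermat.Agent.Arith
open Fermat.Agent.RT.Mazur Fermat.Agent.RT.MazurP

variable {A : ValuationSubring QBar} {p M : ℕ} [Fact p.Prime] [NeZero M] [CharP (Res A) p]
  [FF.IsFunctionField (Res A) (KM A M)] {hpM : ¬ p ∣ M} {C : CoefField A p}

/-- The class of a reduction is eigen. -/
theorem redJ_hecke_charClass [FF.IsFunctionField QBar (FB M)] (hA : A.LiesOverPrime p)
    (hM : (M : Res A) ≠ 0) (K : Kum hpM C) {l : ℕ} [NeZero l] (hl : l.Prime)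
    (hlN : ¬ l ∣ p * M) {x : JZero (p * M)} {a : ℤ}
    (hx : heckeOperatorBar (p * M) ⟨l, hl⟩ x = a • x) (hfn : HasFn p x K.f) (s : Fin 2)
    (hdiv : ∀ Q : Place (Res A) (KM A M), (p : ℤ) ∣ Q.ord (K.fb s))
    (y : JZero M) (hy : redJ hM y = resClass hdiv) :
    redJ hM (heckeOperatorBar M ⟨l, hl⟩ y) = a • resClass hdiv := by
  classical
  have hp : p.Prime := Fact.out
  have := residueField_isAlgClosed A
  have hlM : ¬ l ∣ M := fun h => hlN (h.mul_left p)
  have hlp : ¬ p ∣ l := fun h =>
    hlN ((Nat.prime_dvd_prime_iff_eq hp hl).mp h ▸ dvd_mul_right p M)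
  have hlR : (l : Res A) ≠ 0 := fun h => hlp ((CharP.cast_eq_zero_iff (Res A) p l).mp h)
  have hMl : ((M * l : ℕ) : Res A) ≠ 0 := by
    rw [Nat.cast_mul]
    exact mul_ne_zero hM hlR
  have : FF.IsFunctionField QBar (FB (M * l)) := ModFun.isFunctionField_bar (M * l)
  have : FF.IsFunctionField (Res A) (KM A (M * l)) :=
    RedTorsion.isFunctionField_full (F := KM A (M * l)) rfl hMl
  -- the relation of the reduced Kummer function under `T_l`
  obtain ⟨u, w, X, hu, hw0, hXdef, -, hXim⟩ := K.exists_red_rel hl hlN hx hfn hA hM s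
  set z : KM A M := K.fb s
  have hz0 : z ≠ 0 := K.fb_ne s
  -- its left side is the norm of the reduction
  have hXN : resNorm A M l z = X := by
    refine Subtype.ext ?_
    have : NeZero (l : Res A) := ⟨hlR⟩
    obtain ⟨η₀, hη₀⟩ := HasEnoughRootsOfUnity.exists_primitiveRoot (Res A) l
    have hη : IsPrimitiveRoot (hη₀.isUnit (NeZero.ne l)).unit l :=
      IsPrimitiveRoot.coe_units_iff.mp (by simpa using hη₀)
    exact qExpand_injective l
      ((resNorm_series hM hMl hA hp hl hlM hlp z _ hη).trans (hXim _ hη).symm)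
  rw [redJ_hecke hM hMl hl, hy, resClass, resTJ_mk]
  -- dividing the divisors by `p`
  have hdivX : resT A M l (resDiv p z) = a • resDiv p z + FF.div (Res A) w := by
    have : NeZero p := ⟨hp.ne_zero⟩
    refine JacTorsion.eq_of_smul_eq (m := p) ?_
    rw [← map_zsmul (resT A M l), smul_resDiv hdiv, resT_div hz0, smul_add, smul_comm,
      smul_resDiv hdiv, hXN, hXdef]
    refine Finsupp.ext fun Q => ?_
    rw [Finsupp.add_apply, Finsupp.smul_apply, Finsupp.smul_apply, FF.div_apply, FF.div_apply,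
      FF.div_apply, smul_eq_mul, smul_eq_mul, ord_const_mul_zpow_mul_pow Q hu hz0 hw0]
  refine Eq.trans ?_ (map_zsmul (QuotientAddGroup.mk' _) a _)
  -- so the classes differ by a principal divisor
  refine (QuotientAddGroup.eq_iff_sub_mem).mpr ?_
  rw [AddSubgroup.mem_addSubgroupOf, AddSubgroupClass.coe_sub, AddSubgroupClass.coe_zsmul,
    Pic0.coe_degZeroCorrespondence]
  show resT A M l (resDiv p z) - a • resDiv p z ∈ _
  rw [hdivX, add_sub_cancel_left]
  exact FF.div_mem_principal hw0

/-- A reduction with orders divisible by `p` gives an eigenform of level `M` or is a `p`-th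
power. -/
theorem exists_eigenform_or_pow_kum (hA : A.LiesOverPrime p) (hM : (M : Res A) ≠ 0)
    (K : Kum hpM C) {G : ℕ → Prop} (hG : ∀ l, l.Prime → G l → ¬ l ∣ p * M) {a : ℕ → ℤ}
    {x : JZero (p * M)} (hx : IsEigen (p * M) G a x) (hfn : HasFn p x K.f) (s : Fin 2)
    (hdiv : ∀ Q : Place (Res A) (KM A M), (p : ℤ) ∣ Q.ord (K.fb s)) :
    (∃ (g : CuspForm (CongruenceSubgroup.Gamma0 M) 2) (_ : g.IsNormalizedEigenform)
      (𝔪 : Ideal (integralClosure ℤ ℂ)), 𝔪.IsMaximal ∧
      ((p : ℕ) : integralClosure ℤ ℂ) ∈ 𝔪 ∧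
      ∀ l, l.Prime → G l → ∃ c : integralClosure ℤ ℂ,
        (c : ℂ) = ModularFormClass.qCoeff g l ∧ c - (a l : integralClosure ℤ ℂ) ∈ 𝔪) ∨
    ∃ w : KM A M, w ^ p = K.fb s := by
  classical
  have hp : p.Prime := Fact.out
  have := residueField_isAlgClosed A
  have : FF.IsFunctionField QBar (FB M) := ModFun.isFunctionField_bar M
  set z : KM A M := K.fb s with hz
  have hz0 : z ≠ 0 := K.fb_ne s
  by_cases hy : resClass (p := p) hdiv = 0
  · have h1 := (QuotientAddGroup.eq_zero_iff _).mp hy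
    rw [AddSubgroup.mem_addSubgroupOf] at h1
    obtain ⟨g, hg, hg'⟩ := h1
    obtain ⟨c, hc⟩ := FF.eq_algebraMap_of_ord_nonneg (K := Res A)
      (f := z / g ^ p) (fun Q => le_of_eq (by
        have e := congrArg (fun E : Divisor (Res A) (KM A M) => E Q) (smul_resDiv hdiv)
        simp only [Finsupp.smul_apply, smul_eq_mul, FF.div_apply] at e
        rw [FF.ord_div Q hz0 (pow_ne_zero p hg), FF.ord_pow, ← hg' Q, ← e, sub_self]))
    obtain ⟨c₀, hc₀⟩ := IsAlgClosed.exists_pow_nat_eq c hp.pos
    refine Or.inr ⟨algebraMap (Res A) (KM A M) c₀ * g, ?_⟩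
    rw [mul_pow, ← map_pow, hc₀, ← hc, div_mul_cancel₀ _ (pow_ne_zero p hg)]
  · refine Or.inl (exists_eigenform_of_residual (q := p) hM hy (nsmul_resClass hz0 hdiv) G a
      fun l hl hGl y hy' => ?_)
    have : NeZero l := ⟨hl.ne_zero⟩
    exact redJ_hecke_charClass hA hM K hl (hG l hl hGl) (hx l hl hGl) hfn s hdiv y hy'

end Fermat.Agent.RT.LowerP

end
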