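import Fermat.Agent.RT.LowerP.Functional

/-!
# Levels at which the Frey representation is congruent to a form

For the irreducible Frey representation a congruent eigenform gives the residual subgroup of the
Jacobian of its level (`exists_residualSubgroup`), so such a level is even (`two_dvd_level`);
raising a level within its prime divisors keeps the congruence (`exists_eigenform_levelIncl`).
Used in `RT/LowerP/Main`.
-/

set_option autoImplicit false

noncomputable section

open WeierstrassCurve WeierstrassCurve.Affine.Point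
open CongruenceSubgroup ModularFormClass
open ModularCurve AlgebraicCurve Fermat.Agent.Semistable

namespace Fermat.Agent.RT.LowerP

open Arith (QBar GQ)

/-- An eigenform stays one at a level with the same prime divisors. -/
theorem exists_eigenform_levelIncl {N L : ℕ} [NeZero L] (h : N ∣ L)
    (hsupp : ∀ q : ℕ, q.Prime → q ∣ L → q ∣ N) {g : CuspForm (Gamma0 N) 2}
    (hg : g.IsNormalizedEigenform) :
    ∃ g' : CuspForm (Gamma0 L) 2, g'.IsNormalizedEigenform ∧ ∀ n, qCoeff g' n = qCoeff g n := by
  refine ⟨Newforms.levelIncl h g, ⟨?_, fun m n hmn => ?_, fun q r hq hqL => ?_,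
    fun q r hq hqL => ?_⟩, fun n => Newforms.qCoeff_levelIncl h g n⟩
  all_goals simp only [Newforms.qCoeff_levelIncl]
  · exact hg.qCoeff_one
  · exact hg.qCoeff_mul_of_coprime m n hmn
  · exact hg.qCoeff_prime_pow_of_not_dvd q r hq fun hqN => hqL (hqN.trans h)
  · exact hg.qCoeff_prime_pow_of_dvd q r hq (hsupp q hq hqL)

variable {P : FreyPackage} [Fact P.p.Prime]

/-- A congruent eigenform gives the residual subgroup. -/
theorem exists_residualSubgroup
    (hirr : GaloisRepIsIrreducible (K := AlgebraicClosure ℚ) ℚ P.freyCurve P.p) {L : ℕ} [NeZero L]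
    {S : Finset ℕ} (h : IsCongruentLevel S (Assembly.freyAbar P (ZMod P.p)) L) :
    Nonempty (ResidualSubgroup P L) := by
  classical
  obtain ⟨g, hg, φ, hφ⟩ := h
  have : CharP (AlgebraicClosure (ZMod P.p)) P.p :=
    charP_of_injective_algebraMap (algebraMap (ZMod P.p) _).injective P.p
  obtain ⟨θ, hθ⟩ := GaloisReps.exists_eigenform_character hg
  have hG : ∀ l, l.Prime → FreyGood P L l → ¬ l ∣ L ∧ l ∉ (∅ : Finset ℕ) := fun l _ hGl =>
    ⟨fun hd => hGl.1 (dvd_mul_of_dvd_left hd _), Finset.notMem_empty l⟩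
  obtain ⟨x, hx0, hpx, hx⟩ := exists_eigen_class (p := P.p) (L := L) ∅
    (φ.comp (θ.comp (GaloisReps.toFull (↑(∅ : Finset ℕ) : Set ℕ)).toRingHom)) (FreyGood P L)
    (freyA P) hG fun l hl hGl => by
      have e : (GaloisReps.toFull (↑(∅ : Finset ℕ) : Set ℕ)).toRingHom
          (CuspForm.heckeAlgebra.T hl (hG l hl hGl).1 (by simp)) =
            HeckeDuality.heckeOp L 2 l hl := GaloisReps.toFull_T hl _ _
      rw [RingHom.comp_apply, RingHom.comp_apply, e,
        Assembly.congr_of_congr_outside GaloisReps.models hg φ S hφ hl hGl.2 (hG l hl hGl).1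
          (freyGood_ne P hGl) (hθ l hl), Assembly.freyAbar, map_intCast]
      rfl
  let D := freyResData P hirr L
  have hS := freyGood_of_not_mem P (NeZero.ne L)
  have hG' : ∀ l, l.Prime → FreyGood P L l → ¬ l ∣ L * P.p := fun l _ hGl => hGl.1
  obtain ⟨U, hU, hne, hst, hker, hns⟩ :=
    exists_residual_subgroup D _ hS hG' (x₀ := x) ⟨hpx, hx⟩ hx0
  exact ⟨{ U := U, torsion := fun y hy => (hU hy).1, eigen := fun y hy => (hU hy).2
           ne_bot := hne, stable := hst, ker := hker, nonscalar := hns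
           quad := fun σ y hy => quad_eigenPart D _ hS hG' σ (hU hy) }⟩

/-- A level with a form congruent to the irreducible Frey representation is even. -/
theorem two_dvd_level
    (hirr : GaloisRepIsIrreducible (K := AlgebraicClosure ℚ) ℚ P.freyCurve P.p) {N : ℕ} [NeZero N]
    {S : Finset ℕ} (h : IsCongruentLevel S (Assembly.freyAbar P (ZMod P.p)) N) : 2 ∣ N := by
  by_contra h2
  obtain ⟨R⟩ := exists_residualSubgroup hirr h
  obtain ⟨A, hA⟩ := Arith.exists_liesOverPrime Nat.prime_two
  obtain ⟨σ, hσ, hns⟩ := exists_inertia_two_not_scalar P hA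
  obtain ⟨x, hx, hne⟩ := R.nonscalar σ hns 1
  have h2p : ¬ 2 ∣ N * P.p := fun hd => (Nat.prime_two.dvd_mul.mp hd).elim h2 fun h' => by
    have := (Nat.prime_dvd_prime_iff_eq Nat.prime_two P.pp).mp h'
    have := P.hp5
    omega
  have hfix := ((GaloisReps.eichlerShimuraCongruence N P.p) 2 Nat.prime_two h2p A hA 1
    ⟨x, Pic0.mem_torsion.mpr (by rw [pow_one, natCast_zsmul]; exact R.torsion x hx)⟩).1 σ hσ
  exact hne (hfix.trans (one_smul ℕ x).symm)

/-- A level of modularity is congruent outside the primes of `N`, `p` and the discriminant. -/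
theorem isCongruentLevel_primeFactors {N : ℕ} [NeZero N] (hmod : P.ModularRepOfLevel N) :
    IsCongruentLevel (N * P.p * P.freyCurveInt.Δ.natAbs).primeFactors
      (Assembly.freyAbar P (ZMod P.p)) N :=
  Assembly.isCongruentLevel_of_modularRepOfLevel (k := ZMod P.p) GaloisReps.models
    (fun ℓ hℓ h => by
      refine Nat.mem_primeFactors.mpr ⟨hℓ, ?_, mul_ne_zero (mul_ne_zero (NeZero.ne N) P.pp.ne_zero)
        (Int.natAbs_ne_zero.mpr (EC.Reduction.Frey.Δ_ne_zero P))⟩
      rcases h with h | h | h
      · exact (dvd_mul_of_dvd_right h.dvd _).mul_right _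
      · exact (h.mul_right _).mul_right _
      · exact (Int.natCast_dvd.mp h).mul_left _) hmod

/-- A divisor of `4 m` not divisible by four divides `2 m`. -/
theorem dvd_two_mul_of_dvd_four_mul {R m : ℕ} (hR : R ∣ 4 * m) (h4 : ¬ 4 ∣ R) : R ∣ 2 * m := by
  by_cases h2 : 2 ∣ R
  · obtain ⟨r, rfl⟩ := h2
    have hr : Nat.Coprime r 2 := (Nat.prime_two.coprime_iff_not_dvd.mpr fun ⟨s, hs⟩ =>
      h4 ⟨s, by omega⟩).symm
    rw [show 4 * m = 2 * (2 * m) by ring] at hR
    exact Nat.mul_dvd_mul_left 2 (hr.dvd_of_dvd_mul_left (Nat.dvd_of_mul_dvd_mul_left two_pos hR))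
  · have hr : Nat.Coprime R 4 := by
      simpa using ((Nat.prime_two.coprime_iff_not_dvd.mpr h2).symm.pow_right 2)
    exact dvd_mul_of_dvd_right (hr.dvd_of_dvd_mul_left hR) 2

end Fermat.Agent.RT.LowerP

end
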