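import Mathlib.Algebra.Module.ZMod
import Mathlib.LinearAlgebra.Dual.Lemmas
import Mathlib.Tactic

/-!
# An invariant functional from a quadratic and a commutation relation
-/

set_option autoImplicit false

namespace Fermat.Agent.RT.LowerP

/-- The action on a stable subgroup killed by `p`, as linear maps. -/
def actEnd (p : ℕ) {G V : Type*} [Monoid G] [AddCommGroup V] [DistribMulAction G V]
    (U : AddSubgroup V) [Module (ZMod p) U] (hU : ∀ g : G, ∀ x ∈ U, g • x ∈ U) :
    G →* Module.End (ZMod p) U where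
  toFun g := AddMonoidHom.toZModLinearMap p
    { toFun := fun y => (⟨g • (y : V), hU g y y.2⟩ : U)
      map_zero' := Subtype.ext (smul_zero g)
      map_add' := fun y z => Subtype.ext (smul_add g (y : V) z) }
  map_one' := LinearMap.ext fun y => Subtype.ext (one_smul G (y : V))
  map_mul' g h := LinearMap.ext fun y => Subtype.ext (mul_smul g h (y : V))

/-- Scalars in `ℤ/p` act on a subgroup through multiples. -/
theorem coe_zmod_smul {p : ℕ} [NeZero p] {V : Type*} [AddCommGroup V] (U : AddSubgroup V)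
    [Module (ZMod p) U] (c : ZMod p) (y : U) : ((c • y : U) : V) = c.val • (y : V) := by
  conv_lhs => rw [← ZMod.natCast_zmod_val c, Nat.cast_smul_eq_nsmul]
  rfl

variable {p : ℕ} [Fact p.Prime] {U : Type*} [AddCommGroup U] [Module (ZMod p) U]

/-- If `t` has eigenvalues `1` and `g` with `g² ≠ 1` and `t N = g N t`, then `N` maps into the
`g`-eigenspace. -/
theorem eigen_of_comm {g : ZMod p} (hg0 : g ≠ 0) (hg1 : g ^ 2 ≠ 1) (t N : U →ₗ[ZMod p] U)
    (hq : ∀ z, t (t z) = (g + 1) • t z - g • z) (hN : ∀ z, t (N z) = g • N (t z)) (x : U) :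
    t (N x) = g • N x := by
  have e1 : t (t (N x)) = (g * g) • ((g + 1) • N (t x) - g • N x) := by
    rw [hN, map_smul, hN, hq, map_sub, map_smul, map_smul, smul_smul]
  have e2 := hq (N x)
  rw [e1, hN] at e2
  have e3 : (g * ((g ^ 2 - 1))) • (N (t x) - N x) = 0 := by
    linear_combination (norm := module) e2
  have hne : g * (g ^ 2 - 1) ≠ 0 := mul_ne_zero hg0 (sub_ne_zero.mpr hg1)
  rw [smul_eq_zero, sub_eq_zero] at e3
  rw [hN, e3.resolve_left hne]

/-- An invariant functional. -/
theorem exists_invariant_dual {g : ZMod p} {ι : Type*} (t : U →ₗ[ZMod p] U)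
    (N : ι → U →ₗ[ZMod p] U) (hg0 : g ≠ 0) (hg1 : g ^ 2 ≠ 1)
    (hq : ∀ z, t (t z) = (g + 1) • t z - g • z) (hN : ∀ i z, t (N i z) = g • N i (t z))
    (hne : ∃ x, t x ≠ g • x) :
    ∃ φ : Module.Dual (ZMod p) U, φ ≠ 0 ∧ (∀ x, φ (t x) = φ x) ∧ ∀ i x, φ (N i x) = 0 := by
  obtain ⟨x₀, hx₀⟩ := hne
  set e : U →ₗ[ZMod p] U := t - g • LinearMap.id with he
  obtain ⟨ψ, hψ⟩ : ∃ ψ : Module.Dual (ZMod p) U, ψ (e x₀) ≠ 0 := by
    by_contra hall
    simp only [not_exists, not_not] at hall
    refine hx₀ (sub_eq_zero.mp ?_)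
    exact (Module.forall_dual_apply_eq_zero_iff (ZMod p) (e x₀)).mp hall
  have hte : ∀ x, e (t x) = e x := fun x => by
    simp only [he, LinearMap.sub_apply, LinearMap.smul_apply, LinearMap.id_apply, hq]
    module
  refine ⟨ψ ∘ₗ e, fun h => hψ ?_, fun x => ?_, fun i x => ?_⟩
  · exact LinearMap.congr_fun h x₀
  · simp only [LinearMap.comp_apply, hte]
  · have : e (N i x) = 0 := by
      simp only [he, LinearMap.sub_apply, LinearMap.smul_apply, LinearMap.id_apply,
        eigen_of_comm hg0 hg1 t (N i) hq (hN i) x, sub_self]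
    simp only [LinearMap.comp_apply, this, map_zero]

end Fermat.Agent.RT.LowerP
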