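import Fermat.Agent.RT.Mazur.HeckeEnd
import Fermat.Agent.RT.Mazur.Residual
import Fermat.Agent.RT.Assembly.Forms
import Fermat.Agent.GaloisReps.Models
import Fermat.Agent.RT.LowerP.Linear

/-!
# A Galois stable eigen subgroup of the torsion of `J₀(L)`

A residual eigensystem of level `L` occurs in `J₀(L)[p]`, and the kernel of the residual
representation acts trivially on some stable subgroup, its nonscalar elements as nonscalars.
-/

set_option autoImplicit false

noncomputable section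

open AlgebraicCurve ModularCurve CongruenceSubgroup Fermat.Agent.GaloisReps

namespace Fermat.Agent.RT.LowerP

open Arith (QBar GQ)

/-- A character in characteristic `p` vanishes where a faithful integral representation is divisible
by `p`: the scaled characteristic polynomial makes the value nilpotent. -/
private theorem map_eq_zero_of_map_eq_zero {T : Type*} [CommRing T] {d p : ℕ}
    (μ : T →+* Matrix (Fin d) (Fin d) ℤ) (hμ : Function.Injective μ)
    {k : Type*} [Field k] [CharP k p] (ψ : T →+* k) {t : T}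
    (ht : (μ t).map (Int.castRingHom (ZMod p)) = 0) : ψ t = 0 := by
  have hdiv : ∀ i j, (p : ℤ) ∣ μ t i j := fun i j =>
    (ZMod.intCast_zmod_eq_zero_iff_dvd _ p).mp (congrFun (congrFun ht i) j)
  choose X hX using hdiv
  set X' : Matrix (Fin d) (Fin d) ℤ := Matrix.of X
  have hμt : μ t = (p : ℤ) • X' := Matrix.ext fun i j => hX i j
  set P := X'.charpoly with hP
  have hz : (P.scaleRoots (p : ℤ)).eval₂ (Int.castRingHom T) t = 0 := by
    refine hμ ?_
    rw [map_zero, Polynomial.hom_eval₂,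
      RingHom.eq_intCast' (μ.comp (Int.castRingHom T)),
      ← RingHom.eq_intCast' (algebraMap ℤ (Matrix (Fin d) (Fin d) ℤ)), hμt,
      show (p : ℤ) • X' = algebraMap ℤ (Matrix (Fin d) (Fin d) ℤ) (p : ℤ) * X' from
        Algebra.smul_def _ _, ← Polynomial.aeval_def]
    exact Polynomial.scaleRoots_aeval_eq_zero (Matrix.aeval_self_charpoly X')
  have h2 := congrArg ψ hz
  rw [map_zero, Polynomial.hom_eval₂, RingHom.eq_intCast' (ψ.comp (Int.castRingHom T)),
    Polynomial.eval₂_eq_sum_range, Finset.sum_range_succ] at h2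
  rw [Finset.sum_eq_zero, zero_add, Polynomial.natDegree_scaleRoots] at h2
  · rw [Polynomial.coeff_scaleRoots_natDegree, (Matrix.charpoly_monic X').leadingCoeff, map_one,
      one_mul] at h2
    exact pow_eq_zero_iff' |>.mp h2 |>.1
  · intro i hi
    rw [Finset.mem_range, Polynomial.natDegree_scaleRoots] at hi
    obtain ⟨j, hj⟩ := Nat.exists_eq_add_of_lt hi
    rw [Polynomial.coeff_scaleRoots, show P.natDegree - i = j + 1 by omega, map_mul, map_pow,
      map_natCast, CharP.cast_eq_zero, zero_pow (Nat.succ_ne_zero j), mul_zero, zero_mul]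

/-- A proper ideal of a finite commutative ring of matrices kills a nonzero vector. -/
private theorem exists_vec_ne_zero_of_ideal {F : Type*} [Field F] [Finite F] {d : ℕ}
    {R : Type*} [CommRing R] (ι : R →+* Matrix (Fin d) (Fin d) F) (hι : Function.Injective ι)
    {J : Ideal R} (hJ : J ≠ ⊤) :
    ∃ v : Fin d → F, v ≠ 0 ∧ ∀ x ∈ J, (ι x).mulVec v = 0 := by
  classical
  have : Finite R := Finite.of_injective ι hι
  obtain ⟨n, hn⟩ := IsArtinian.monotone_stabilizes
    (⟨fun m => OrderDual.toDual (J ^ m), fun _ _ h => Ideal.pow_le_pow_right h⟩ :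
      ℕ →o (Submodule R R)ᵒᵈ)
  replace hn : J ^ n = J ^ (n + 1) := hn (n + 1) n.le_succ
  -- by Nakayama some `r ≡ 1` modulo `J` kills the stable power `J ^ n`
  obtain ⟨r, hr1, hr0⟩ := Submodule.exists_sub_one_mem_and_smul_eq_zero_of_fg_of_le_smul J (J ^ n)
    (IsNoetherian.noetherian _) (by rw [smul_eq_mul, ← pow_succ']; exact hn.le)
  have hrJ : r ≠ 0 := fun h => hJ ((Ideal.eq_top_iff_one J).mpr (by
    rw [h, zero_sub] at hr1
    exact neg_mem_iff.mp hr1))
  obtain ⟨w, hw⟩ : ∃ w, (ι r).mulVec w ≠ 0 := by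
    by_contra hall
    simp only [not_exists, not_not] at hall
    exact hrJ (hι (by
      rw [map_zero]
      exact Matrix.ext_iff_mulVec.mpr fun v => by rw [hall v, Matrix.zero_mulVec]))
  have hkill : ∀ x ∈ J ^ n, (ι x).mulVec ((ι r).mulVec w) = 0 := fun x hx => by
    rw [Matrix.mulVec_mulVec, ← map_mul, mul_comm x r, show r * x = 0 from hr0 x hx, map_zero,
      Matrix.zero_mulVec]
  -- take a nonzero vector killed by the least power of `J`
  have hex : ∃ m, ∀ x ∈ J ^ m, (ι x).mulVec ((ι r).mulVec w) = 0 := ⟨n, hkill⟩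
  set m := Nat.find hex
  have hm0 : m ≠ 0 := fun h => hw (by
    have := Nat.find_spec hex 1 (by rw [show Nat.find hex = 0 from h, pow_zero]; simp)
    rwa [map_one, Matrix.one_mulVec] at this)
  obtain ⟨m', hm'⟩ := Nat.exists_eq_succ_of_ne_zero hm0
  have := Nat.find_min hex (show m' < Nat.find hex by omega)
  simp only [not_forall] at this
  obtain ⟨y, hy, hy0⟩ := this
  refine ⟨(ι y).mulVec ((ι r).mulVec w), hy0, fun x hx => ?_⟩
  rw [Matrix.mulVec_mulVec, ← map_mul]
  refine Nat.find_spec hex _ ?_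
  rw [show Nat.find hex = m' + 1 from hm', pow_succ']
  exact Ideal.mul_mem_mul hx hy

/-- A character in characteristic `p` of an algebra with a faithful integral representation has an
eigenvector modulo `p`. -/
theorem exists_eigen_mod {T : Type*} [CommRing T] {d p : ℕ} [Fact p.Prime]
    (μ : T →+* Matrix (Fin d) (Fin d) ℤ) (hμ : Function.Injective μ)
    {k : Type*} [Field k] [CharP k p] (ψ : T →+* k) :
    ∃ v : Fin d → ZMod p, v ≠ 0 ∧
      ∀ t, ψ t = 0 → ((μ t).map (Int.castRingHom (ZMod p))).mulVec v = 0 := by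
  set μp : T →+* Matrix (Fin d) (Fin d) (ZMod p) :=
    (Int.castRingHom (ZMod p)).mapMatrix.comp μ
  -- `ψ` factors through the finite ring of reductions modulo `p`
  let ψR : T ⧸ RingHom.ker μp →+* k :=
    Ideal.Quotient.lift _ ψ fun t ht =>
      map_eq_zero_of_map_eq_zero μ hμ ψ (show μp t = 0 from RingHom.mem_ker.mp ht)
  obtain ⟨v, hv0, hv⟩ := exists_vec_ne_zero_of_ideal (RingHom.kerLift μp)
    (RingHom.kerLift_injective μp) (RingHom.ker_ne_top ψR)
  exact ⟨v, hv0, fun t ht => hv (Ideal.Quotient.mk _ t) (RingHom.mem_ker.mpr ht)⟩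

variable {p : ℕ} [Fact p.Prime]

/-- The residual representation data: matrices with Frobenius relations at the primes in `G`. -/
structure ResData (p : ℕ) [Fact p.Prime] (G : ℕ → Prop) (a : ℕ → ℤ) where
  /-- The representation. -/
  r : GQ →* Matrix (Fin 2) (Fin 2) (ZMod p)
  span : Submodule.span (ZMod p) (Set.range r) = ⊤
  finite : ∃ L : IntermediateField ℚ QBar, FiniteDimensional ℚ L ∧
    ∀ σ : GQ, (∀ x ∈ L, σ x = x) → r σ = 1
  frob : ∀ l : ℕ, l.Prime → G l → ∀ B : ValuationSubring QBar, B.LiesOverPrime l →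
    ∀ σ : GQ, B.IsFrobeniusAt σ l → (r σ).trace = (a l : ZMod p) ∧ (r σ).det = (l : ZMod p)

variable {L : ℕ} [NeZero L]

/-- The eigensystem occurs in `J₀(L)[p]`. -/
theorem exists_eigen_class {k : Type} [Field k] [CharP k p] (S' : Finset ℕ)
    (χ : CuspForm.heckeAlgebra L 2 (↑S' : Set ℕ) →+* k) (G : ℕ → Prop) (a : ℕ → ℤ)
    (hG : ∀ l, l.Prime → G l → ¬ l ∣ L ∧ l ∉ S')
    (hχ : ∀ (l : ℕ) (hl : l.Prime) (hGl : G l),
      χ (CuspForm.heckeAlgebra.T hl (hG l hl hGl).1 (by simpa using (hG l hl hGl).2)) = a l) :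
    ∃ x : JZero L, x ≠ 0 ∧ p • x = 0 ∧
      ∀ (l : ℕ) (hl : l.Prime), G l → heckeOperatorBar L ⟨l, hl⟩ x = a l • x := by
  classical
  have hp : p.Prime := Fact.out
  have : NeZero p := ⟨hp.ne_zero⟩
  -- an eigenvector in the lattice modulo `p`
  obtain ⟨v, hv0, hv⟩ := exists_eigen_mod (p := p)
    ((latticeMat L).comp (toFull (↑S' : Set ℕ)).toRingHom)
    ((latticeMat_injective (N := L)).comp (toFull_injective _)) χ
  -- it is the coordinate vector of a torsion class
  obtain ⟨x, hx⟩ : ∃ x, Mazur.tCoord L p x = v :=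
    let e := (JacTorsion.torsionEquiv L p).trans (atkinEquiv L (ZMod p))
    let ⟨φ, hφ⟩ := (coord_bijective (N := L) (ZMod p)).2 v
    ⟨e.symm φ, by rw [Mazur.tCoord, show (JacTorsion.torsionEquiv L p).trans
      (atkinEquiv L (ZMod p)) = e from rfl, e.apply_symm_apply]; exact hφ⟩
  have hp0 : p • (x : JZero L) = 0 := by
    rw [← natCast_zsmul]; exact Pic0.mem_torsion.mp x.2
  have hc0 : Mazur.tCoord L p 0 = 0 := by
    simp [Mazur.tCoord]
  have hadd : ∀ y z, Mazur.tCoord L p (y + z) = Mazur.tCoord L p y + Mazur.tCoord L p z :=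
    fun y z => by simp [Mazur.tCoord]
  refine ⟨x, fun h0 => hv0 ?_, hp0, fun l hl hGl => ?_⟩
  · rw [← hx, show x = 0 from Subtype.ext h0, hc0]
  obtain ⟨hlL, hlS⟩ := hG l hl hGl
  let Tl : Pic0.torsion QBar (modularFunctionFieldBar L) p :=
    ⟨heckeOperatorBar L ⟨l, hl⟩ (x : JZero L), Pic0.mem_torsion.mpr (by
      rw [← map_zsmul, Pic0.mem_torsion.mp x.2, map_zero])⟩
  let φc : Pic0.torsion QBar (modularFunctionFieldBar L) p →+ (Fin (2 * Gamma0.genus L) → ZMod p) :=
    AddMonoidHom.mk' (Mazur.tCoord L p) hadd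
  suffices h : Tl = a l • x from congrArg Subtype.val h
  refine Mazur.tCoord_injective p ?_
  show φc Tl = φc (a l • x)
  rw [map_zsmul]
  show Mazur.tCoord L p Tl = a l • Mazur.tCoord L p x
  -- on coordinates `T_l` is the Hecke matrix
  rw [Mazur.tCoord_hecke p l hl x Tl rfl, hx]
  set t := CuspForm.heckeAlgebra.T hl hlL (show l ∉ (↑S' : Set ℕ) by simpa using hlS) -
    (a l : CuspForm.heckeAlgebra L 2 (↑S' : Set ℕ)) with ht
  have h1 := hv t (by rw [ht, map_sub, hχ l hl hGl, map_intCast, sub_self])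
  have e : (toFull (↑S' : Set ℕ)) t = HeckeDuality.heckeOp L 2 l hl - (a l : FullHecke L) := by
    rw [ht, map_sub, map_intCast, toFull_T hl hlL, HeckeDuality.heckeOp, dif_neg hlL]
  rw [RingHom.comp_apply, show (toFull (↑S' : Set ℕ)).toRingHom t =
    (toFull (↑S' : Set ℕ)) t from rfl,
    e, map_sub, map_intCast, latticeMat_heckeOp, Matrix.map_sub _ (map_sub _),
    Matrix.sub_mulVec, sub_eq_zero] at h1
  rw [h1, show ((a l : Matrix (Fin (2 * Gamma0.genus L)) (Fin (2 * Gamma0.genus L)) ℤ)).map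
    (Int.castRingHom (ZMod p)) = (a l : Matrix _ _ (ZMod p)) from
      map_intCast (Int.castRingHom (ZMod p)).mapMatrix (a l), ← zsmul_one, Matrix.smul_mulVec,
    Matrix.one_mulVec]

variable (p L) in
/-- The `p`-torsion classes with the eigenvalues `a`. -/
def eigenPart (G : ℕ → Prop) (a : ℕ → ℤ) : AddSubgroup (JZero L) where
  carrier := {x | p • x = 0 ∧ ∀ (l : ℕ) (hl : l.Prime), G l →
    heckeOperatorBar L ⟨l, hl⟩ x = a l • x}
  add_mem' hx hy := ⟨by rw [nsmul_add, hx.1, hy.1, add_zero], fun l hl hG => by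
    rw [map_add, hx.2 l hl hG, hy.2 l hl hG, zsmul_add]⟩
  zero_mem' := ⟨nsmul_zero p, fun l hl _ => by rw [map_zero, zsmul_zero]⟩
  neg_mem' hx := ⟨by rw [neg_nsmul, hx.1, neg_zero], fun l hl hG => by
    rw [map_neg, hx.2 l hl hG, zsmul_neg]⟩

omit [Fact (Nat.Prime p)] in
theorem smul_mem_eigenPart {G : ℕ → Prop} {a : ℕ → ℤ} (σ : GQ) {x : JZero L}
    (hx : x ∈ eigenPart p L G a) : σ • x ∈ eigenPart p L G a :=
  ⟨by rw [show p • σ • x = σ • (p • x) from
      (map_nsmul (DistribSMul.toAddMonoidHom (JZero L) σ) p x).symm, hx.1];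
      exact smul_zero (A := JZero L) σ,
    fun l hl hG => by
      refine (galois_heckeOperatorBar L (⟨l, hl⟩ : Nat.Primes) σ x).symm.trans ?_
      rw [hx.2 l hl hG]
      exact map_zsmul (DistribSMul.toAddMonoidHom (JZero L) σ) (a l) x⟩

theorem finite_eigenPart {G : ℕ → Prop} {a : ℕ → ℤ} : Finite (eigenPart p L G a) := by
  have : NeZero p := ⟨(Fact.out : p.Prime).ne_zero⟩
  let j : eigenPart p L G a → (Fin (2 * Gamma0.genus L) → ZMod p) := fun x =>
    Mazur.tCoord L p ⟨(x : JZero L), Pic0.mem_torsion.mpr (by rw [natCast_zsmul]; exact x.2.1)⟩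
  exact Finite.of_injective j fun x y h => Subtype.ext
    (congrArg (fun z => (z : Pic0.torsion QBar (modularFunctionFieldBar L) p).1)
      (Mazur.tCoord_injective p h))

variable {G : ℕ → Prop} {a : ℕ → ℤ}

/-- The quadratic relations on the eigen part. -/
theorem quad_eigenPart (D : ResData p G a) (S : Finset ℕ) (hS : ∀ l, l.Prime → l ∉ S → G l)
    (hG : ∀ l, l.Prime → G l → ¬ l ∣ L * p) (g : GQ) {x : JZero L}
    (hx : x ∈ eigenPart p L G a) :
    g • g • x - (D.r g).trace.val • g • x + (D.r g).det.val • x = 0 := by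
  classical
  have hp : p.Prime := Fact.out
  have : NeZero p := ⟨hp.ne_zero⟩
  obtain ⟨F, hF, hFr⟩ := D.finite
  have := finite_eigenPart (p := p) (L := L) (G := G) (a := a)
  -- by Chebotarev `g` agrees with a Frobenius element on the eigen part and under `r`, so the
  -- Eichler–Shimura relation applies
  let act : GQ →* Function.End (eigenPart p L G a) :=
    { toFun := fun σ y => ⟨σ • (y : JZero L), smul_mem_eigenPart σ y.2⟩
      map_one' := funext fun y => Subtype.ext (one_smul GQ (y : JZero L))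
      map_mul' := fun σ τ => funext fun y => Subtype.ext (mul_smul σ τ (y : JZero L)) }
  choose Fy hFy hFyfix using fun y : eigenPart p L G a => GaloisReps.exists_fixing_torsion L
    (⟨(y : JZero L), Pic0.mem_torsion.mpr (by rw [natCast_zsmul]; exact y.2.1)⟩ :
      Pic0.torsion QBar (modularFunctionFieldBar L) p)
  have := fun y => hFy y
  have := Fintype.ofFinite (eigenPart p L G a)
  let K : IntermediateField ℚ QBar := F ⊔ ⨆ y, Fy y
  have : FiniteDimensional ℚ (⨆ y, Fy y : IntermediateField ℚ QBar) :=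
    IntermediateField.finiteDimensional_iSup_of_finite
  obtain ⟨l, hl, hlS, B, hB, σ, hσ, he⟩ := Arith.Chebotarev.exists_frobenius_eq (act.prod D.r) K
    (fun τ hτ => Prod.ext (funext fun y => Subtype.ext (hFyfix y τ fun z hz => hτ z
        ((le_sup_right : _ ≤ K) ((le_iSup Fy y) hz))))
      (hFr τ fun z hz => hτ z ((le_sup_left : F ≤ K) hz))) g S
  have hGl := hS l hl hlS
  have er : D.r σ = D.r g := congrArg Prod.snd he
  have ea : ∀ {y : JZero L}, y ∈ eigenPart p L G a → σ • y = g • y := fun {y} hy =>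
    congrArg Subtype.val (congrFun (congrArg Prod.fst he) ⟨y, hy⟩)
  obtain ⟨htr, hdet⟩ := D.frob l hl hGl B hB σ hσ
  have hES := ((GaloisReps.eichlerShimuraCongruence L p) l hl (hG l hl hGl) B hB 1
    ⟨x, Pic0.mem_torsion.mpr (by rw [pow_one, natCast_zsmul]; exact hx.1)⟩).2 σ hσ
  simp only at hES
  rw [(smul_mem_eigenPart σ hx).2 l hl hGl, ea (smul_mem_eigenPart σ hx), ea hx] at hES
  have hval : ∀ (z : ℤ) {y : JZero L}, p • y = 0 → (z : ZMod p).val • y = z • y := by
    intro z y hy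
    rw [← natCast_zsmul, ZMod.val_intCast]
    conv_rhs => rw [← Int.emod_add_ediv_mul z p, add_zsmul, mul_zsmul, natCast_zsmul, hy,
      zsmul_zero, add_zero]
  rw [← er, htr, hdet, ← Int.cast_natCast (R := ZMod p) l,
    hval _ (smul_mem_eigenPart g hx).1, hval _ hx.1, natCast_zsmul]
  exact hES

/-- A nonzero stable subgroup on which the kernel of the representation acts trivially and its
nonscalar elements act as nonscalars. -/
theorem exists_residual_subgroup (D : ResData p G a) (S : Finset ℕ)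
    (hS : ∀ l, l.Prime → l ∉ S → G l) (hG : ∀ l, l.Prime → G l → ¬ l ∣ L * p)
    {x₀ : JZero L} (hx₀ : x₀ ∈ eigenPart p L G a) (hx₀0 : x₀ ≠ 0) :
    ∃ U : AddSubgroup (JZero L), U ≤ eigenPart p L G a ∧ (∃ x ∈ U, x ≠ 0) ∧
      (∀ σ : GQ, ∀ x ∈ U, σ • x ∈ U) ∧ (∀ σ : GQ, D.r σ = 1 → ∀ x ∈ U, σ • x = x) ∧
      ∀ σ : GQ, (∀ c : ZMod p, D.r σ ≠ c • 1) → ∀ c : ℕ, ∃ x ∈ U, σ • x ≠ c • x := by
  classical
  have hp1 : ∀ y : eigenPart p L G a, p • y = 0 := fun y => Subtype.ext y.2.1
  have : Module (ZMod p) (eigenPart p L G a) := AddCommGroup.zmodModule hp1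
  have : Finite (eigenPart p L G a) := finite_eigenPart
  have : NeZero p := ⟨(Fact.out : p.Prime).ne_zero⟩
  let ψ := actEnd (G := GQ) p (eigenPart p L G a) fun σ x hx => smul_mem_eigenPart σ hx
  have hsmul := coe_zmod_smul (p := p) (eigenPart p L G a)
  obtain ⟨U, -, hU0, hU, htriv, hns⟩ := Mazur.exists_submodule_kernel ψ D.r D.span ⊤
    (fun _ _ _ => Submodule.mem_top) (fun h => hx₀0 (congrArg Subtype.val
      ((Submodule.eq_bot_iff _).mp h ⟨x₀, hx₀⟩ Submodule.mem_top))) fun g v _ => Subtype.ext (by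
        simp only [AddSubgroup.coe_add, AddSubgroupClass.coe_sub, hsmul, ψ, ZeroMemClass.coe_zero]
        exact quad_eigenPart D S hS hG g v.2)
  obtain ⟨u, hu, hu0⟩ := Submodule.exists_mem_ne_zero_of_ne_bot hU0
  refine ⟨U.toAddSubgroup.map (eigenPart p L G a).subtype, ?_,
    ⟨u, ⟨u, hu, rfl⟩, fun h => hu0 (Subtype.ext h)⟩,
    ?_, ?_, ?_⟩
  · rintro _ ⟨y, -, rfl⟩; exact y.2
  · rintro σ _ ⟨y, hy, rfl⟩; exact ⟨ψ σ y, hU σ y hy, rfl⟩
  · rintro σ hσ _ ⟨y, hy, rfl⟩; exact congrArg Subtype.val (htriv σ hσ y hy)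
  · intro σ hσ c
    obtain ⟨y, hy, hne⟩ := hns σ hσ (c : ZMod p)
    refine ⟨_, ⟨y, hy, rfl⟩, fun h => hne (Subtype.ext (h.trans ?_))⟩
    rw [Nat.cast_smul_eq_nsmul]
    rfl

end Fermat.Agent.RT.LowerP

end
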