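import Fermat.Agent.RT.LowerP.Hecke
import Fermat.Agent.RT.LowerP.CharPower
import Fermat.Agent.RT.MazurP.Level
import Fermat.Agent.RT.MazurP.Units
import Fermat.Agent.Semistable.Torsion
import Fermat.Agent.GaloisReps.HeckeGalois

/-!
# Eigen classes without congruent eigenform of lower level are flat

Under the hypotheses `Ctx` (`p` odd and prime to `M`, no elliptic points at level `M`, not
Eisenstein), an eigen `p`-torsion class of level `p M` with coefficients in a tame or peu ramifié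
field either gives an eigenform of level `M` with the same eigenvalues, or has a Kummer function
with both reductions one.

See `Ctx.exists_flat_fn_tame`, `Ctx.exists_flat_fn_wild` and `isFlatClass_of_fn`.
-/

set_option autoImplicit false

noncomputable section

namespace Fermat.Agent.RT.LowerP

open ModularCurve AlgebraicCurve Fermat.Agent.Semistable Fermat.Agent.Arith
open Fermat.Agent.RT.MazurP

/-! ## The hypotheses -/

/-- There is an eigenform of level `M` congruent to `a` at the primes in `G`. -/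
def HasForm (p M : ℕ) (G : ℕ → Prop) (a : ℕ → ℤ) : Prop :=
  ∃ (g : CuspForm (CongruenceSubgroup.Gamma0 M) 2) (_ : g.IsNormalizedEigenform)
    (𝔪 : Ideal (integralClosure ℤ ℂ)), 𝔪.IsMaximal ∧
    ((p : ℕ) : integralClosure ℤ ℂ) ∈ 𝔪 ∧
    ∀ l, l.Prime → G l → ∃ c : integralClosure ℤ ℂ,
      (c : ℂ) = ModularFormClass.qCoeff g l ∧ c - (a l : integralClosure ℤ ℂ) ∈ 𝔪

variable {A : ValuationSubring QBar} {p M : ℕ} [Fact p.Prime] [NeZero M] [CharP (Res A) p]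
  [FF.IsFunctionField (Res A) (KM A M)]

/-- The standing hypotheses. -/
structure Ctx (A : ValuationSubring QBar) (p M : ℕ) [Fact p.Prime] [NeZero M] (G : ℕ → Prop)
    (a : ℕ → ℤ) : Prop where
  hA : A.LiesOverPrime p
  hp3 : 3 ≤ p
  hpM : ¬ p ∣ M
  hE : nuTwo M = 0 ∧ nuThree M = 0
  hG : ∀ l, l.Prime → G l → ¬ l ∣ p * M
  exists_ne : ∃ l, l.Prime ∧ G l ∧ ¬ (p : ℤ) ∣ (l : ℤ) + 1 - a l

variable {G : ℕ → Prop} {a : ℕ → ℤ}

omit [CharP (Res A) p] [FF.IsFunctionField (Res A) ↥(KM A M)] in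
theorem Ctx.hM (S : Ctx A p M G a) : (M : Res A) ≠ 0 := natCast_res_ne_zero S.hA S.hpM

theorem Ctx.exists_simple (S : Ctx A p M G a) : ∃ V : VUnit A S.hpM, V.Simple := by
  obtain ⟨V⟩ := exists_vUnit S.hA S.hpM
  exact ⟨V, V.simple S.hA S.hM S.hE⟩

variable {hpM : ¬ p ∣ M} {C : CoefField A p}

omit [CharP (Res A) p] [FF.IsFunctionField (Res A) ↥(KM A M)] in
theorem Ctx.dvd_δ (S : Ctx A p M G a) (K : Kum hpM C) {x : JZero (p * M)}
    (hx : IsEigen (p * M) G a x) (hfn : HasFn p x K.f) : (p : ℤ) ∣ K.δ := by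
  obtain ⟨l, hl, hGl, hne⟩ := S.exists_ne
  have : NeZero l := ⟨hl.ne_zero⟩
  exact ((Nat.prime_iff_prime_int.mp (Fact.out : p.Prime)).dvd_mul.mp
    (K.dvd_mul_δ hl (S.hG l hl hGl) (hx l hl hGl) hfn S.hA)).resolve_left hne

/-- Without a form of level `M`, a Kummer function all whose reduced orders are divisible by `p`
gives a flat one. -/
theorem Ctx.exists_unit_fn (S : Ctx A p M G a) (hno : ¬ HasForm p M G a) (K : Kum hpM C)
    {x : JZero (p * M)} (hx : IsEigen (p * M) G a x) (hfn : HasFn p x K.f)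
    (hord : ∀ (s : Fin 2) (P : Place (Res A) (KM A M)), (p : ℤ) ∣ P.ord (K.fb s)) :
    ∃ f : FB (p * M), HasFn p x f ∧ (∀ τ ∈ C.H, galF (p * M) τ f = f) ∧
      ∀ s, ∃ h : iota2 M p hpM s f ∈ locS A, redL A ⟨_, h⟩ = 1 := by
  obtain ⟨V, hV⟩ := S.exists_simple
  have hpow : ∀ s, ∃ w : KM A M, w ^ p = K.fb s := fun s =>
    (exists_eigenform_or_pow_kum S.hA S.hM K S.hG hx hfn s (hord s)).resolve_left hno
  obtain ⟨κ, φ, hκ, hφ, hκf, hφf, hred⟩ :=
    K.exists_unit_red S.hA S.hM V hV (S.dvd_δ K hx hfn) hpow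
  refine ⟨_, ?_, fun τ hτ => ?_, hred⟩
  · obtain ⟨c, hc⟩ := IsAlgClosed.exists_pow_nat_eq κ (Fact.out : p.Prime).pos
    have hc0 : algebraMap QBar (FB (p * M)) c * φ ≠ 0 := mul_ne_zero ((_root_.map_ne_zero _).mpr
      fun h0 => hκ (by rw [← hc, h0, zero_pow (Fact.out : p.Prime).ne_zero])) hφ
    have h1 := hfn.mul (HasFn.pow_mem (p := p) hc0)
    rw [add_zero] at h1
    rw [← hc, map_pow, show algebraMap QBar (FB (p * M)) c ^ p * K.f * φ ^ p =
      K.f * (algebraMap QBar (FB (p * M)) c * φ) ^ p by ring]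
    exact h1
  · rw [map_mul, map_mul, map_pow, hφf τ hτ, K.fix τ hτ, arithmeticRingAut_algebraMap, hκf τ hτ]

/-! ## The tame case -/

/-- In a field with `p ∤ e` all the reduced orders of a Kummer function of an eigen class are
divisible by `p`. -/
theorem Ctx.dvd_ord_tame (S : Ctx A p M G a) (he : ¬ p ∣ C.e) (K : Kum hpM C)
    {x : JZero (p * M)} (hx : IsEigen (p * M) G a x) (hfn : HasFn p x K.f) :
    ∀ (s : Fin 2) (P : Place (Res A) (KM A M)), (p : ℤ) ∣ P.ord (K.fb s) := by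
  obtain ⟨V, hV⟩ := S.exists_simple
  obtain ⟨hoff, hnode, -⟩ := K.count_equalities V S.hA S.hM hV
  have hδ := S.dvd_δ K hx hfn
  have key : ∀ z : ℤ, (p : ℤ) ∣ (C.e : ℤ) * z → (p : ℤ) ∣ z := fun z hz =>
    ((Nat.prime_iff_prime_int.mp (Fact.out : p.Prime)).dvd_mul.mp hz).resolve_left
      fun h => he (by exact_mod_cast h)
  intro s P
  rcases hV.val P with h | h
  · fin_cases s
    · exact (hoff P h).1
    · exact (hoff P h).2
  · fin_cases s
    · exact key _ ((dvd_sub_right hδ).mp (hnode P h).1)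
    · exact key _ ((dvd_add_right hδ).mp (hnode P h).2)

/-- Without a form of level `M`, an eigen class fixed by a tame group has a flat Kummer function. -/
theorem Ctx.exists_flat_fn_tame (S : Ctx A p M G a) (hno : ¬ HasForm p M G a) (he : ¬ p ∣ C.e)
    {x : JZero (p * M)} (hx : IsEigen (p * M) G a x) (hpx : p • x = 0)
    (hfix : ∀ τ ∈ C.H, τ • x = x) :
    ∃ f : FB (p * M), HasFn p x f ∧ (∀ τ ∈ C.H, galF (p * M) τ f = f) ∧
      ∀ s, ∃ h : iota2 M p S.hpM s f ∈ locS A, redL A ⟨_, h⟩ = 1 := by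
  obtain ⟨f, hfn, hff⟩ := exists_fixed_fn C.H hpx hfix
  obtain ⟨K, rfl⟩ := Kum.exists_of (hpM := S.hpM) (C := C) S.hA S.hM hfn.ne_zero hfn.dvd hff
  exact S.exists_unit_fn hno K hx hfn (S.dvd_ord_tame he K hx hfn)

/-! ## The wild case -/

omit [CharP (Res A) p] [FF.IsFunctionField (Res A) ↥(KM A M)] [NeZero M] [Fact p.Prime] in
/-- An element of `A` with nonzero residue is a unit of `A`. -/
private theorem ne_zero_and_inv_mem {a : QBar} (ha : a ∈ A)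
    (h : IsLocalRing.residue A ⟨a, ha⟩ ≠ 0) : a ≠ 0 ∧ a⁻¹ ∈ A := by
  obtain ⟨u, hu⟩ := (IsLocalRing.residue_ne_zero_iff_isUnit _).mp h
  have e : a * ((↑u⁻¹ : A) : QBar) = 1 := by
    have := congrArg Subtype.val u.mul_inv
    rwa [hu] at this
  exact ⟨left_ne_zero_of_mul_eq_one e,
    by rw [inv_eq_of_mul_eq_one_right e]; exact SetLike.coe_mem _⟩

omit [CharP (Res A) p] [FF.IsFunctionField (Res A) ↥(KM A M)] [NeZero M] [Fact p.Prime] in
/-- Integral powers of a principal unit are principal units. -/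
private theorem zpow_mem_residue_eq_one {ε : QBar} (hεA : ε ∈ A)
    (hεr : IsLocalRing.residue A ⟨ε, hεA⟩ = 1) (n : ℤ) :
    ε ^ n ∈ A ∧ ∃ hm, IsLocalRing.residue A ⟨ε ^ n, hm⟩ = 1 := by
  obtain ⟨hε0, hεi⟩ := ne_zero_and_inv_mem hεA (by rw [hεr]; exact one_ne_zero)
  have hires : IsLocalRing.residue A ⟨ε⁻¹, hεi⟩ = 1 := by
    have e := map_mul (IsLocalRing.residue A) (⟨ε, hεA⟩ : A) ⟨ε⁻¹, hεi⟩
    rw [show (⟨ε, hεA⟩ : A) * ⟨ε⁻¹, hεi⟩ = 1 from Subtype.ext (mul_inv_cancel₀ hε0), map_one,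
      hεr, one_mul] at e
    exact e.symm
  rcases Int.eq_nat_or_neg n with ⟨n, hn | hn⟩
  · rw [hn, zpow_natCast]
    exact ⟨pow_mem hεA n, pow_mem hεA n, (map_pow (IsLocalRing.residue A) ⟨ε, hεA⟩ n).trans
      (by rw [hεr, one_pow])⟩
  · rw [hn, zpow_neg, zpow_natCast, ← inv_pow]
    exact ⟨pow_mem hεi n, pow_mem hεi n, (map_pow (IsLocalRing.residue A) ⟨ε⁻¹, hεi⟩ n).trans
      (by rw [hires, one_pow])⟩

omit [FF.IsFunctionField (Res A) ↥(KM A M)] [NeZero M] in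
/-- When `κ X ^ p` has reduction one, `X` has a constant reduction, lifted by an element fixed by
inertia. -/
private theorem exists_lift_red_root (hA : A.LiesOverPrime p) {κ₁ : QBar} {X z : Fin 2 → LSer}
    (hX0 : ∀ s, X s ≠ 0) (hĥ : ∀ s, X s ∈ locS A) (hĥ0 : ∀ s, redL A ⟨_, hĥ s⟩ ≠ 0)
    (hĥz : ∀ s, algebraMap QBar LSer κ₁ * X s ^ p = z s) (hzm : ∀ s, z s ∈ locS A)
    (hzr : ∀ s, redL A ⟨_, hzm s⟩ = 1) :
    ∃ (a₀ : QBar) (ha₀ : a₀ ∈ A), a₀⁻¹ ∈ A ∧ a₀ ≠ 0 ∧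
      (∀ τ ∈ A.inertiaSubgroupIn ℚ, τ a₀ = a₀) ∧
      ∀ s, redL A ⟨_, hĥ s⟩ =
        algebraMap (Res A) (LaurentSeries (Res A)) (IsLocalRing.residue A ⟨a₀, ha₀⟩) := by
  have hp : p.Prime := Fact.out
  have := residueField_isAlgClosed A
  -- `κ₁` is a unit
  have hκA : κ₁ ∈ A ∧ κ₁ ∉ A.nonunits := by
    obtain ⟨hi, -⟩ := inv_mem_locS (pow_mem (hĥ 0) p) (by
      rw [show (⟨_, pow_mem (hĥ 0) p⟩ : locS A) = ⟨_, hĥ 0⟩ ^ p from rfl, map_pow]
      exact pow_ne_zero _ (hĥ0 0))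
    have hne : X 0 ^ p ≠ 0 := pow_ne_zero _ (hX0 0)
    have hm : algebraMap QBar LSer κ₁ ∈ locS A := by
      have := mul_mem (hzm 0) hi
      rwa [← hĥz 0, mul_inv_cancel_right₀ hne] at this
    refine mem_of_algebraMap_mem_locS hm fun h0 => one_ne_zero (α := LaurentSeries (Res A)) ?_
    rw [← hzr 0, redL_congr (hzm 0) (mul_mem hm (pow_mem (hĥ 0) p)) (hĥz 0).symm,
      redL_mul' hm (pow_mem (hĥ 0) p), h0, zero_mul]
  -- the reduction of `X` is the `p`-th root of the inverse residue of `κ₁`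
  obtain ⟨ρ, hρ⟩ := IsAlgClosed.exists_pow_nat_eq (IsLocalRing.residue A ⟨κ₁, hκA.1⟩)⁻¹ hp.pos
  have hκr : IsLocalRing.residue A ⟨κ₁, hκA.1⟩ ≠ 0 := fun h0 =>
    hκA.2 ((residue_eq_zero_iff hκA.1).mp h0)
  have hρ0 : ρ ≠ 0 := fun h0 => inv_ne_zero hκr (by rw [← hρ, h0, zero_pow hp.ne_zero])
  -- lifted by an element fixed by inertia
  obtain ⟨a₀, ha₀, ha₀f, ha₀r⟩ := exists_inertiaFixed_lift hA hp ρ
  have hbr : ∀ s, redL A ⟨_, hĥ s⟩ = algebraMap (Res A) (LaurentSeries (Res A)) ρ := by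
    intro s
    have := charP_laurent A p
    refine frobenius_inj (LaurentSeries (Res A)) p ?_
    rw [frobenius_def, frobenius_def, ← map_pow (algebraMap (Res A) (LaurentSeries (Res A))), hρ,
      map_inv₀]
    refine eq_inv_of_mul_eq_one_right ?_
    rw [← hzr s, redL_congr (hzm s) (mul_mem (algebraMap_mem_locS hκA.1) (pow_mem (hĥ s) p))
      (hĥz s).symm, redL_mul' (algebraMap_mem_locS hκA.1) (pow_mem (hĥ s) p),
      redL_algebraMap hκA.1,
      show (⟨_, pow_mem (hĥ s) p⟩ : locS A) = ⟨_, hĥ s⟩ ^ p from rfl, map_pow]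
  obtain ⟨ha₀0, ha₀i⟩ := ne_zero_and_inv_mem ha₀ (ha₀r ▸ hρ0)
  exact ⟨a₀, ha₀, ha₀i, ha₀0, ha₀f, fun s => by rw [ha₀r]; exact hbr s⟩

omit [CharP (Res A) p] [FF.IsFunctionField (Res A) ↥(KM A M)] [NeZero M] [Fact p.Prime] in
/-- A principal unit `1 + u π + w π ^ 2` has residue one. -/
private theorem residue_principal_eq_one {u w : QBar} (hu : u ∈ A) (hw : w ∈ A) :
    ∃ hεA : 1 + u * C.π + w * C.π ^ 2 ∈ A, IsLocalRing.residue A ⟨_, hεA⟩ = 1 := by
  have hπA : C.π ∈ A := mem_of_mem_nonunits C.π_nonunit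
  refine ⟨add_mem (add_mem (one_mem A) (mul_mem hu hπA)) (mul_mem hw (pow_mem hπA 2)), ?_⟩
  rw [← map_one (IsLocalRing.residue A), Arith.residue_eq_iff]
  show 1 + u * C.π + w * C.π ^ 2 - 1 ∈ A.nonunits
  rw [show 1 + u * C.π + w * C.π ^ 2 - 1 = (u + w * C.π) * C.π by ring]
  exact nonunits_mul_left (add_mem hu (mul_mem hw hπA)) C.π_nonunit

omit [CharP (Res A) p] [FF.IsFunctionField (Res A) ↥(KM A M)] [NeZero M] in
/-- A fixed series `a₀⁻¹ X` with `X` reducing to `a₀` is `1` modulo the uniformiser. -/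
private theorem exists_eq_one_add_π_mul (hA : A.LiesOverPrime p) {a₀ : QBar} {x X : LSer}
    (e : x = algebraMap QBar LSer a₀⁻¹ * X) {ha₀ : a₀ ∈ A} (ha₀i : a₀⁻¹ ∈ A) (ha₀0 : a₀ ≠ 0)
    (hX : X ∈ locS A) (hbr : redL A ⟨_, hX⟩ =
      algebraMap (Res A) (LaurentSeries (Res A)) (IsLocalRing.residue A ⟨a₀, ha₀⟩))
    (hfix : C.Fix x) : ∃ y ∈ locS A, x = 1 + algebraMap QBar LSer C.π * y := by
  have hm : x ∈ locS A := e ▸ mul_mem (algebraMap_mem_locS ha₀i) hX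
  have h0 : redL A ⟨_, sub_mem hm (one_mem _)⟩ = 0 := by
    rw [show (⟨_, sub_mem hm (one_mem _)⟩ : locS A) = ⟨_, hm⟩ - 1 from rfl, map_sub, map_one,
      redL_congr hm (mul_mem (algebraMap_mem_locS ha₀i) hX) e,
      redL_mul' (algebraMap_mem_locS ha₀i) hX, hbr, redL_algebraMap ha₀i, ← map_mul,
      ← map_mul]
    rw [show (⟨a₀⁻¹, ha₀i⟩ : A) * ⟨a₀, ha₀⟩ = 1 from Subtype.ext (inv_mul_cancel₀ ha₀0), map_one,
      map_one, sub_self]
  refine ⟨_, C.inv_π_mul_mem hA (sub_mem hm (one_mem _)) (fun τ hτ => ?_) h0, ?_⟩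
  · rw [map_sub, map_one, hfix τ hτ]
  · rw [← mul_assoc, ← map_mul, mul_inv_cancel₀ C.π_ne_zero, map_one, one_mul,
      add_sub_cancel]

omit [CharP (Res A) p] [FF.IsFunctionField (Res A) ↥(KM A M)] in
/-- If `σ f = f f₀ (c h) ^ p` with `f₀` of reduction one, so is `(c h) ^ p` on either side, the
uniformiser being moved by a principal unit. -/
private theorem exists_red_pow_eq_one {W : Wild A p} (K : Kum hpM W.C) {ε : QBar} (hεA : ε ∈ A)
    (hεr : IsLocalRing.residue A ⟨ε, hεA⟩ = 1) (hε0 : ε ≠ 0) (hσπ : W.σ W.C.π = W.C.π * ε)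
    {f₀ h' : FB (p * M)} (hf₀0 : f₀ ≠ 0)
    (hf₀r : ∀ s, ∃ h : iota2 M p hpM s f₀ ∈ locS A, redL A ⟨_, h⟩ = 1) {c : QBar}
    (heq : galF (p * M) W.σ K.f =
      K.f * f₀ * (algebraMap QBar (FB (p * M)) c * h') ^ p) (s : Fin 2) :
    ∃ hm : algebraMap QBar LSer (c ^ p) * iota2 M p hpM s h' ^ p ∈ locS A,
      redL A ⟨_, hm⟩ = 1 := by
  have hin := W.σ_mem_inertia
  set z : LSer := algebraMap QBar LSer (c ^ p) * iota2 M p hpM s h' ^ p with hz
  obtain ⟨hx₁, hr₁⟩ := K.spec s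
  obtain ⟨hf, hfr⟩ := hf₀r s
  obtain ⟨hσx, hσr⟩ := (resLift_of_inertia hin).redL_coeffMap hx₁
  rw [coeffMap_id, hr₁] at hσr
  have hne : (K.fb s : LaurentSeries (Res A)) ≠ 0 := fun h0 => K.fb_ne s (Subtype.ext h0)
  obtain ⟨hi₁, hir₁⟩ := inv_mem_locS hx₁ (by rw [hr₁]; exact hne)
  obtain ⟨hif, hifr⟩ := inv_mem_locS hf (by rw [hfr]; exact one_ne_zero)
  have hεv := zpow_mem_residue_eq_one hεA hεr (K.v s)
  obtain ⟨hεv, hεv', hεvr⟩ := hεv
  have hm := mul_mem (mul_mem (mul_mem (algebraMap_mem_locS hεv) hσx) hi₁) hif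
  have e : z = algebraMap QBar LSer (ε ^ K.v s) *
      coeffMap (W.σ : QBar →+* QBar)
        (algebraMap QBar LSer (W.C.π ^ (-K.v s)) * iota2 M p hpM s K.f) *
      (algebraMap QBar LSer (W.C.π ^ (-K.v s)) * iota2 M p hpM s K.f)⁻¹ *
      (iota2 M p hpM s f₀)⁻¹ := by
    have hi0 : iota2 M p hpM s K.f ≠ 0 := (_root_.map_ne_zero _).mpr K.f_ne
    have hif0 : iota2 M p hpM s f₀ ≠ 0 := (_root_.map_ne_zero _).mpr hf₀0
    have e1 := congrArg (iota2 M p hpM s) heq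
    simp only [Semistable.iota2_galF, map_mul, map_pow, mul_pow, AlgHom.commutes] at e1
    have e2 : W.σ (W.C.π ^ (-K.v s)) = W.C.π ^ (-K.v s) * ε ^ (-K.v s) := by
      rw [map_zpow₀, hσπ, mul_zpow]
    have hπ0 : algebraMap QBar LSer (W.C.π ^ (-K.v s)) ≠ 0 :=
      (_root_.map_ne_zero _).mpr (zpow_ne_zero _ W.C.π_ne_zero)
    rw [map_mul, coeffMap_algebraMap, e1, hz]
    simp only [RingHom.coe_coe]
    rw [e2, map_mul, zpow_neg ε, map_inv₀ (algebraMap QBar LSer) (ε ^ K.v s), map_pow]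
    have hεv0 : algebraMap QBar LSer (ε ^ K.v s) ≠ 0 :=
      (_root_.map_ne_zero _).mpr (zpow_ne_zero _ hε0)
    field_simp
  refine ⟨e ▸ hm, ?_⟩
  rw [redL_congr _ hm e, redL_mul' (mul_mem (mul_mem (algebraMap_mem_locS hεv) hσx) hi₁) hif,
    redL_mul' (mul_mem (algebraMap_mem_locS hεv) hσx) hi₁,
    redL_mul' (algebraMap_mem_locS hεv) hσx, redL_algebraMap hεv, hσr, hir₁, hifr, hfr, hr₁,
    hεvr, map_one, one_mul, inv_one, mul_one, mul_inv_cancel₀ hne]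

omit [FF.IsFunctionField (Res A) ↥(KM A M)] in
/-- The relation of the wild generator with flat factor. -/
theorem Ctx.exists_sigmaRel (S : Ctx A p M G a) {W : Wild A p} (K : Kum hpM W.C)
    {x x₀ : JZero (p * M)} (hfn : HasFn p x K.f) (hx₀ : W.σ • x = x + x₀) {f₀ : FB (p * M)}
    (hfn₀ : HasFn p x₀ f₀) (hf₀f : ∀ τ ∈ W.C₁.H, galF (p * M) τ f₀ = f₀)
    (hf₀r : ∀ s, ∃ h : iota2 M p hpM s f₀ ∈ locS A, redL A ⟨_, h⟩ = 1) :
    ∃ R : SigmaRel W K, R.f₀ = f₀ := by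
  classical
  have hp : p.Prime := Fact.out
  have hA := S.hA
  have hσσ : ∀ τ ∈ W.C.H, ∀ y : FB (p * M), galF (p * M) τ (galF (p * M) W.σ y) =
      galF (p * M) W.σ (galF (p * M) (W.σ⁻¹ * τ * W.σ) y) := fun τ _ y => Subtype.ext (by
    simp only [coe_arithmeticRingAut, coeffMap_coeffMap]
    congr 2
    refine RingHom.ext fun z => ?_
    show τ (W.σ z) = W.σ ((W.σ⁻¹ * τ * W.σ) z)
    rw [AlgEquiv.mul_apply, AlgEquiv.mul_apply, ← AlgEquiv.mul_apply W.σ, mul_inv_cancel,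
      AlgEquiv.one_apply])
  -- the root
  have h1 : HasFn p (W.σ • x) (galF (p * M) W.σ K.f) := hfn.galF W.σ
  obtain ⟨h, hh, heq⟩ := (hfn.mul hfn₀).exists_pow (hx₀ ▸ h1)
  have hσfix : ∀ τ ∈ W.C.H, galF (p * M) τ (galF (p * M) W.σ K.f) = galF (p * M) W.σ K.f :=
    fun τ hτ => by rw [hσσ τ hτ, K.fix _ (W.normal τ hτ)]
  have hhp : h ^ p = galF (p * M) W.σ K.f / (K.f * f₀) := by
    rw [heq, mul_div_cancel_left₀ _ (mul_ne_zero K.f_ne hfn₀.ne_zero)]
  obtain ⟨c, h', hc, hcH, h'0, h'fix, rfl⟩ := exists_fixed_root (H := W.C.H) hh fun τ hτ => by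
    rw [hhp, map_div₀, map_mul, hσfix τ hτ, K.fix τ hτ, hf₀f τ (W.le hτ)]
  -- the quotient of the reductions is one
  set z : Fin 2 → LSer := fun s =>
    algebraMap QBar LSer (c ^ p) * iota2 M p hpM s h' ^ p with hz
  obtain ⟨w₀, hw₀, hσπ⟩ := W.σ_π
  obtain ⟨hεA, hεr⟩ := residue_principal_eq_one (C := W.C) W.u.2 hw₀
  set ε : QBar := 1 + (W.u : QBar) * W.C.π + w₀ * W.C.π ^ 2
  have hε0 : ε ≠ 0 := (ne_zero_and_inv_mem hεA (by rw [hεr]; exact one_ne_zero)).1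
  have hz1 : ∀ s, ∃ hm : z s ∈ locS A, redL A ⟨_, hm⟩ = 1 :=
    exists_red_pow_eq_one K hεA hεr hε0 hσπ hfn₀.ne_zero hf₀r heq
  choose hzm hzr using hz1
  -- normalise the root
  have hfix' : ∀ s, W.C.Fix (iota2 M p hpM s h') := fix_iota h'fix
  have hcp : algebraMap QBar LSer (c ^ p) ≠ 0 := (_root_.map_ne_zero _).mpr (pow_ne_zero _ hc)
  set g : Fin 2 → ℤ := fun s => W.C.gord (iota2 M p hpM s h') with hg
  have hgz : ∀ s, W.C.gord (algebraMap QBar LSer (c ^ p)) + p * g s = 0 := by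
    intro s
    have hi0 : iota2 M p hpM s h' ≠ 0 := (_root_.map_ne_zero _).mpr h'0
    rw [← W.C.gord_pow hA hp (iota2_fracS M p hpM s h') hi0 (hfix' s),
      ← W.C.gord_mul hA hp (algebraMap_mem_fracS _) (pow_mem (iota2_fracS M p hpM s h') p) hcp
        (pow_ne_zero _ hi0) (CoefField.fix_algebraMap hcH) ((hfix' s).pow p)]
    exact CoefField.gord_of_isGUnit ⟨hzm s, by rw [hzr s]; exact one_ne_zero⟩
  have hg01 : g 1 = g 0 := by
    have := hgz 0; have := hgz 1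
    exact mul_left_cancel₀ (Int.natCast_ne_zero.mpr hp.ne_zero) (by linarith)
  set κ₁ : QBar := c ^ p * W.C.π ^ ((p : ℤ) * g 0) with hκ₁
  have hgs : ∀ s, W.C.gord (iota2 M p hpM s h') = g 0 := Fin.forall_fin_two.mpr ⟨rfl, hg01⟩
  have hgu : ∀ s, ∃ (hm : algebraMap QBar LSer (W.C.π ^ (-g 0)) * iota2 M p hpM s h' ∈ locS A),
      redL A ⟨_, hm⟩ ≠ 0 ∧ algebraMap QBar LSer κ₁ *
        (algebraMap QBar LSer (W.C.π ^ (-g 0)) * iota2 M p hpM s h') ^ p = z s := by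
    intro s
    have hspec := W.C.gord_spec hA hp (iota2_fracS M p hpM s h')
      ((_root_.map_ne_zero _).mpr h'0) (hfix' s)
    rw [hgs s] at hspec
    obtain ⟨hm, hne⟩ := hspec
    refine ⟨hm, hne, ?_⟩
    rw [hz, hκ₁, mul_pow, ← map_pow, ← mul_assoc, ← map_mul, mul_assoc, ← zpow_natCast
      (W.C.π ^ (-g 0)), ← zpow_mul, ← zpow_add₀ W.C.π_ne_zero,
      show (p : ℤ) * g 0 + -g 0 * (p : ℤ) = 0 by ring, zpow_zero, mul_one]
  choose hĥ hĥ0 hĥz using hgu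
  -- the residue of the constant
  obtain ⟨a₀, ha₀, ha₀i, ha₀0, ha₀f, hbr⟩ := exists_lift_red_root hA
    (fun s => mul_ne_zero ((_root_.map_ne_zero _).mpr (zpow_ne_zero _ W.C.π_ne_zero))
      ((_root_.map_ne_zero _).mpr h'0)) hĥ hĥ0 hĥz hzm hzr
  set d : QBar := a₀⁻¹ * W.C.π ^ (-g 0) with hd
  set q : FB (p * M) := algebraMap QBar (FB (p * M)) d * h' with hq
  have hqfix : ∀ τ ∈ W.C.H, galF (p * M) τ q = q := fun τ hτ => by
    rw [hq, map_mul, h'fix τ hτ, arithmeticRingAut_algebraMap, hd, map_mul, map_inv₀, map_zpow₀,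
      W.C.π_fixed τ hτ, ha₀f τ (W.C.le_inertia hτ)]
  have hq1 : ∀ s, ∃ y ∈ locS A,
      iota2 M p hpM s q = 1 + algebraMap QBar LSer W.C.π * y := fun s =>
    exists_eq_one_add_π_mul hA (by rw [hq, map_mul, AlgHom.commutes, hd, map_mul, mul_assoc])
      ha₀i ha₀0 (hĥ s) (hbr s) (fix_iota hqfix s)
  choose y hym hy using hq1
  have hd0 : d ≠ 0 := mul_ne_zero (inv_ne_zero ha₀0) (zpow_ne_zero _ W.C.π_ne_zero)
  exact ⟨{ f₀ := f₀
           f₀_ne := hfn₀.ne_zero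
           f₀_dvd := hfn₀.dvd
           f₀_fix := hf₀f
           f₀_red := hf₀r
           q := q
           q_fix := hqfix
           y := y
           y_mem := hym
           q_eq := hy
           κ := (c * d⁻¹) ^ p
           κ_ne := pow_ne_zero _ (mul_ne_zero hc (inv_ne_zero hd0))
           rel := by
            rw [heq, hq, map_pow, map_mul, map_inv₀, mul_pow, mul_pow, mul_pow, inv_pow]
            field_simp [(_root_.map_ne_zero (algebraMap QBar (FB (p * M)))).mpr hd0] }, rfl⟩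

/-- Without a form of level `M`, an eigen class fixed by the wild group has a flat Kummer
function. -/
theorem Ctx.exists_flat_fn_wild (S : Ctx A p M G a) (hno : ¬ HasForm p M G a) (W : Wild A p)
    {x : JZero (p * M)} (hx : IsEigen (p * M) G a x) (hpx : p • x = 0)
    (hfix : ∀ τ ∈ W.C.H, τ • x = x) (hfix₀ : ∀ τ ∈ W.C₁.H, τ • (W.σ • x - x) = W.σ • x - x) :
    ∃ f : FB (p * M), HasFn p x f ∧ (∀ τ ∈ W.C.H, galF (p * M) τ f = f) ∧
      ∀ s, ∃ h : iota2 M p S.hpM s f ∈ locS A, redL A ⟨_, h⟩ = 1 := by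
  have hx₀ : IsEigen (p * M) G a (W.σ • x - x) := fun l hl hGl => by
    rw [map_sub, ← GaloisReps.galois_heckeOperatorBar (p * M) (⟨l, hl⟩ : Nat.Primes) W.σ x,
      hx l hl hGl, zsmul_sub]
    rw [show W.σ • (a l • x) = a l • (W.σ • x) from
      map_zsmul (DistribSMul.toAddMonoidHom (JZero (p * M)) W.σ) (a l) x]
  have hpx₀ : p • (W.σ • x - x) = 0 := by
    rw [nsmul_sub, show p • W.σ • x = W.σ • (p • x) from
      (map_nsmul (DistribSMul.toAddMonoidHom (JZero (p * M)) W.σ) p x).symm, hpx, sub_eq_zero]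
    exact smul_zero (A := JZero (p * M)) W.σ
  have he₁ : ¬ p ∣ W.C₁.e := by
    rw [W.e₁_eq]
    intro h
    have h3 := S.hp3
    have := Nat.le_of_dvd (by omega) h
    omega
  obtain ⟨f₀, hfn₀, hf₀f, hf₀r⟩ := S.exists_flat_fn_tame hno he₁ hx₀ hpx₀ hfix₀
  obtain ⟨f, hfn, hff⟩ := exists_fixed_fn W.C.H hpx hfix
  obtain ⟨K, rfl⟩ := Kum.exists_of (hpM := S.hpM) (C := W.C) S.hA S.hM hfn.ne_zero hfn.dvd hff
  obtain ⟨R, hR⟩ := S.exists_sigmaRel K hfn (x₀ := W.σ • x - x) (add_sub_cancel x (W.σ • x)).symm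
    hfn₀ hf₀f hf₀r
  obtain ⟨V, hV⟩ := S.exists_simple
  obtain ⟨l, hl, hGl, hne⟩ := S.exists_ne
  have : NeZero l := ⟨hl.ne_zero⟩
  refine S.exists_unit_fn hno K hx hfn fun s P => ?_
  rcases hV.val P with h | h
  · fin_cases s
    · exact ((K.count_equalities V S.hA S.hM hV).1 P h).1
    · exact ((K.count_equalities V S.hA S.hM hV).1 P h).2
  · have := SigmaRel.dvd_ord_node (R := R) hl (S.hG l hl hGl) (hx l hl hGl) S.hA S.hM V hV hfn
      (hx₀ l hl hGl) (hR ▸ hfn₀) hne h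
    fin_cases s
    · exact this.1
    · exact this.2

/-! ## Flatness of the class -/

omit [CharP (Res A) p] [FF.IsFunctionField (Res A) ↥(KM A M)] in
/-- The class has a Kummer function with both reductions one. -/
theorem isFlatClass_of_fn {f : FB (p * M)} {x : JZero (p * M)} (hfn : HasFn p x f)
    (hred : ∀ s, ∃ h : iota2 M p hpM s f ∈ locS A, redL A ⟨_, h⟩ = 1) :
    OrdinaryAtP.IsFlatClass A M p hpM x := by
  choose h e using hred
  obtain ⟨u, rfl, hu⟩ := hfn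
  exact ⟨u, hu, (mem_loc2 _).mpr h, funext fun s => (red2_apply _ _ s).trans (e s)⟩

end Fermat.Agent.RT.LowerP

end
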