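import Fermat.Agent.RT.LowerP.Main
import Fermat.Agent.OrdinaryAtP.NoQuotient

/-!
# The flat input

1. `flatNoTrivialQuotient`: for `p ≥ 5` and `M` prime to `p` and divisible by `4`, an
   inertia-stable group of flat classes of level `p M` has no nonzero inertia-invariant
   functional (`OrdinaryAtP.eq_zero_of_invariant_of_flat`).
2. With `lowerAtP_of_flat` (`RT/LowerP/Main`, where the argument is described) this gives
   `lowerAtPInput : Frey.LowerAtPInput`, used for S01, S03, S44 and S45.
-/

set_option autoImplicit false

noncomputable section

open Fermat.Agent.Semistable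

namespace Fermat.Agent.RT.LowerP

/-- Stable groups of flat classes have no nonzero invariant functional. -/
theorem flatNoTrivialQuotient : FlatNoTrivialQuotient := by
  intro A M p _ _ hpM hA h4 hp5 H hstab hflat π hπ
  have : CharP (Res A) p := charP_res hA
  have h := setup_of_not_dvd hA hpM
  have : FF.IsFunctionField (Res A) (KM A M) := isFunctionField_KM _ h.hM
  have : Nonempty (Pt h) := RT.Mazur.nonempty_pt_of_dvd h (L := 4) (Or.inl rfl) h4
  exact OrdinaryAtP.eq_zero_of_invariant_of_flat h (by omega) H hflat hstab π hπ

/-- **Lowering the level at `p`**: `p` is removed from the level of the Frey representation. -/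
theorem lowerAtPInput : Frey.LowerAtPInput := lowerAtP_of_flat flatNoTrivialQuotient

end Fermat.Agent.RT.LowerP

end
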