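import Fermat.Agent.RT.LowerP.EigenSpace
import Fermat.Agent.RT.MazurP.LocalE
import Fermat.Agent.RT.Assembly.Residual
import Fermat.Agent.Deform.Burnside

/-!
# The residual data of the Frey curve

The matrices of the representation on the `p`-torsion of the Frey curve, with their values on
inertia at `p` when `p ∣ a b c`, and a nonscalar value on inertia at `2`.
-/

set_option autoImplicit false

noncomputable section

open WeierstrassCurve.Affine.Point Polynomial

namespace Fermat.Agent.RT.LowerP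

open Fermat.Agent.RT.MazurP
open Fermat.Agent.EC.AtP (PointQBar)
open Arith (QBar GQ)
open Arith (cyclotomicHom cyclotomicHom_apply)

variable (P : FreyPackage) [Fact P.p.Prime]

/-- The representation on the `p`-torsion. -/
abbrev freyRep : ResidualGaloisRep (ZMod P.p) :=
  EC.Rep.residualRep P.freyCurveInt P.p (EC.Reduction.Frey.Δ_ne_zero P)

/-- A basis of the `p`-torsion. -/
def freyBasis : Module.Basis (Fin 2) (ZMod P.p) (freyRep P).V :=
  Module.finBasisOfFinrankEq _ _ (freyRep P).finrank_eq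

/-- The matrices of the representation. -/
def freyMat : GQ →* Matrix (Fin 2) (Fin 2) (ZMod P.p) :=
  (LinearMap.toMatrixAlgEquiv (freyBasis P)).toMonoidHom.comp (freyRep P).ρ

theorem trace_freyMat (σ : GQ) :
    (freyMat P σ).trace = LinearMap.trace (ZMod P.p) _ ((freyRep P).ρ σ) :=
  (LinearMap.trace_eq_matrix_trace _ (freyBasis P) _).symm

theorem det_freyMat (σ : GQ) : (freyMat P σ).det = LinearMap.det ((freyRep P).ρ σ) :=
  LinearMap.det_toMatrix (freyBasis P) _

theorem freyMat_eq_one_of_fixed {σ : GQ}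
    (h : ∀ x : PointQBar P.freyCurveInt, (P.p : ℤ) • x = 0 → σ • x = x) : freyMat P σ = 1 := by
  have e : (freyRep P).ρ σ = 1 := LinearMap.ext fun x => Subtype.ext
    (h x.1 ((Submodule.mem_torsionBy_iff _ _).mp x.2))
  show LinearMap.toMatrixAlgEquiv (freyBasis P) ((freyRep P).ρ σ) = 1
  rw [e, map_one]

/-- The good primes away from `p` and `L`. -/
def FreyGood (L : ℕ) (l : ℕ) : Prop :=
  ¬ l ∣ L * P.p ∧ P.freyCurveInt.IsGoodPrimeFor l

/-- The eigenvalues. -/
def freyA (l : ℕ) : ℤ := P.freyCurveInt.apOfModel l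

omit [Fact P.p.Prime] in
theorem freyGood_ne {L l : ℕ} (h : FreyGood P L l) : l ≠ P.p := fun e => h.1 (e ▸ dvd_mul_left _ _)

omit [Fact P.p.Prime] in
/-- The primes outside a finite set are good. -/
theorem freyGood_of_not_mem {L : ℕ} (hL : L ≠ 0) :
    ∀ l, l.Prime → l ∉ (L * P.p * P.freyCurveInt.Δ.natAbs).primeFactors → FreyGood P L l := by
  intro l hl hlS
  have hne : L * P.p * P.freyCurveInt.Δ.natAbs ≠ 0 :=
    mul_ne_zero (mul_ne_zero hL P.pp.ne_zero)
      (Int.natAbs_ne_zero.mpr (EC.Reduction.Frey.Δ_ne_zero P))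
  exact ⟨fun h => hlS (Nat.mem_primeFactors.mpr ⟨hl, h.mul_right _, hne⟩), fun h =>
    hlS (Nat.mem_primeFactors.mpr ⟨hl, (Int.natCast_dvd.mp h).mul_left _, hne⟩)⟩

omit [Fact P.p.Prime] in
theorem modRepIsIrreducible_frey
    (hirr : GaloisRepIsIrreducible (K := AlgebraicClosure ℚ) ℚ P.freyCurve P.p) :
    P.freyCurveInt.ModRepIsIrreducible P.p := by
  rw [EC.Reduction.Frey.freyCurve_eq_map] at hirr
  exact hirr

/-- The residual data. -/
def freyResData (hirr : GaloisRepIsIrreducible (K := AlgebraicClosure ℚ) ℚ P.freyCurve P.p)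
    (L : ℕ) : ResData P.p (FreyGood P L) (freyA P) where
  r := freyMat P
  span := Deform.span_matrix_eq_top _ (EC.Rep.isAbsolutelyIrreducible_residualRep _
    (by have := P.hp5; omega) (modRepIsIrreducible_frey P hirr)) (freyBasis P)
  finite := by
    obtain ⟨K, hK, hρ⟩ := (freyRep P).factorsThroughFiniteLevel
    exact ⟨K, hK, fun σ hσ => by
      show LinearMap.toMatrixAlgEquiv (freyBasis P) ((freyRep P).ρ σ) = 1
      rw [hρ σ hσ, map_one]⟩
  frob := fun l hl hGl B hB σ hσ => by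
    have h := EC.Rep.charpoly_residualRep_frobenius (EC.Reduction.Frey.Δ_ne_zero P) hl hGl.2
      (freyGood_ne P hGl) hB hσ
    rw [EC.FrobTrace.charpoly_of_finrank_eq_two (freyRep P).finrank_eq] at h
    have h0 := congrArg (fun f => Polynomial.coeff f 0) h
    have h1 := congrArg (fun f => Polynomial.coeff f 1) h
    refine ⟨?_, ?_⟩
    · rw [trace_freyMat]; simpa [coeff_X_pow, freyA] using h1
    · rw [det_freyMat]; simpa [coeff_X_pow, freyA] using h0

theorem exists_freyA_ne
    (hirr : GaloisRepIsIrreducible (K := AlgebraicClosure ℚ) ℚ P.freyCurve P.p) {L : ℕ}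
    (hL : L ≠ 0) :
    ∃ l, l.Prime ∧ FreyGood P L l ∧ ¬ (P.p : ℤ) ∣ (l : ℤ) + 1 - freyA P l := by
  obtain ⟨l, hl, hlS, -, -, hne⟩ := EC.Rep.exists_apOfModel_ne (by have := P.hp5; omega)
    (modRepIsIrreducible_frey P hirr) (EC.Reduction.Frey.Δ_ne_zero P)
    (L * P.p * P.freyCurveInt.Δ.natAbs).primeFactors
  refine ⟨l, hl, freyGood_of_not_mem P hL l hl hlS, fun h => hne ?_⟩
  have := (ZMod.intCast_zmod_eq_zero_iff_dvd _ P.p).mpr h
  push_cast [freyA] at this
  linear_combination -this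

variable {P}

/-- Inertia over `p` at a multiplicative place. -/
theorem freyMat_inertia_p {A : ValuationSubring QBar} (hA : A.LiesOverPrime P.p)
    (h : (P.p : ℤ) ∣ P.a * P.b * P.c) {τ : GQ} (hτ : τ ∈ A.inertiaSubgroupIn ℚ) :
    (freyMat P τ).trace = (cyclotomicHom P.p τ : ZMod P.p) + 1 ∧
      (freyMat P τ).det = (cyclotomicHom P.p τ : ZMod P.p) := by
  have hp2 : P.p ≠ 2 := by have := P.hp5; omega
  refine ⟨?_, ?_⟩
  · rw [trace_freyMat]
    exact (exists_frame hA hp2 (EC.Reduction.Frey.Δ_ne_zero P)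
      (EC.Reduction.Frey.dvd_Δ P P.pp hp2 h) (EC.Reduction.Frey.not_dvd_c₄ P P.pp h)).2 τ hτ
  · rw [det_freyMat, EC.Rep.det_residualRep _ (IsAlgClosed.card_rootsOfUnity_eq _ P.p),
      cyclotomicHom_apply]

theorem exists_frey_frame {A : ValuationSubring QBar} (hA : A.LiesOverPrime P.p)
    (h : (P.p : ℤ) ∣ P.a * P.b * P.c) : Nonempty (Frame A P.freyCurveInt P.p) := by
  have hp2 : P.p ≠ 2 := by have := P.hp5; omega
  exact (exists_frame hA hp2 (EC.Reduction.Frey.Δ_ne_zero P)
    (EC.Reduction.Frey.dvd_Δ P P.pp hp2 h) (EC.Reduction.Frey.not_dvd_c₄ P P.pp h)).1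

variable (P) in
/-- Some inertia element at `2` acts as a nonscalar. -/
theorem exists_inertia_two_not_scalar {A : ValuationSubring QBar} (hA : A.LiesOverPrime 2) :
    ∃ σ ∈ A.inertiaSubgroupIn ℚ, ∀ c : ZMod P.p, freyMat P σ ≠ c • 1 := by
  obtain ⟨σ, hσ, hne⟩ := Assembly.exists_inertia_two_ne_one (P := P) (k := ZMod P.p) hA
  have ht := Assembly.trace_freyRho_inertia (P := P) (k := ZMod P.p) Nat.prime_two
    (by have := P.hp5; omega) hA hσ
  have ht' : LinearMap.trace (ZMod P.p) _ ((freyRep P).ρ σ) = 2 := by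
    refine Eq.trans ?_ ht
    exact (LinearMap.trace_baseChange ((freyRep P).ρ σ) (A := ZMod P.p)).symm
  refine ⟨σ, hσ, fun c hc => hne ?_⟩
  have hc1 : c = 1 := by
    have e := trace_freyMat P σ
    rw [hc, ht', Matrix.trace_smul, Matrix.trace_one, Fintype.card_fin, smul_eq_mul] at e
    push_cast at e
    exact mul_right_cancel₀ (EC.Rep.two_ne_zero_zmod (by have := P.hp5; omega))
      (e.trans (one_mul 2).symm)
  rw [hc1, one_smul] at hc
  have e : (freyRep P).ρ σ = 1 :=
    (LinearMap.toMatrixAlgEquiv (freyBasis P)).injective (hc.trans (map_one _).symm)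
  show LinearMap.baseChange (ZMod P.p) ((freyRep P).ρ σ) = 1
  rw [e, LinearMap.baseChange_one]

end Fermat.Agent.RT.LowerP

end
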