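import Fermat.Agent.RT.LowerP.Frey
import Fermat.Agent.RT.LowerP.Linear
import Fermat.Agent.RT.LowerP.Flat

/-!
# An invariant functional on the residual subgroup and flatness of its classes
-/

set_option autoImplicit false

noncomputable section

open WeierstrassCurve WeierstrassCurve.Affine.Point
open ModularCurve Fermat.Agent.Semistable

namespace Fermat.Agent.RT.LowerP

open Fermat.Agent.RT.MazurP
open Fermat.Agent.EC.AtP (PointQBar)
open Arith (QBar GQ)
open Arith (cyclotomicHom cyclotomicHom_apply)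

variable {P : FreyPackage} [Fact P.p.Prime] {L : ℕ} [NeZero L] {A : ValuationSubring QBar}

/-- A subgroup on which the residual representation acts. -/
structure ResidualSubgroup (P : FreyPackage) [Fact P.p.Prime] (L : ℕ) [NeZero L] where
  /-- The group. -/
  U : AddSubgroup (JZero L)
  torsion : ∀ x ∈ U, P.p • x = 0
  eigen : ∀ x ∈ U, ∀ (l : ℕ) (hl : l.Prime), FreyGood P L l →
    heckeOperatorBar L ⟨l, hl⟩ x = freyA P l • x
  ne_bot : ∃ x ∈ U, x ≠ 0
  stable : ∀ σ : GQ, ∀ x ∈ U, σ • x ∈ U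
  ker : ∀ σ : GQ, freyMat P σ = 1 → ∀ x ∈ U, σ • x = x
  nonscalar : ∀ σ : GQ, (∀ c : ZMod P.p, freyMat P σ ≠ c • 1) → ∀ c : ℕ, ∃ x ∈ U, σ • x ≠ c • x
  quad : ∀ σ : GQ, ∀ x ∈ U,
    σ • σ • x - (freyMat P σ).trace.val • σ • x + (freyMat P σ).det.val • x = 0

namespace ResidualSubgroup

variable (R : ResidualSubgroup P L)

theorem wildKer_smul {τ : GQ} (hτ : τ ∈ wildKer A P.freyCurveInt P.p) {x : JZero L} (hx : x ∈ R.U) :
    τ • x = x :=
  R.ker τ (freyMat_eq_one_of_fixed P (mem_wildKer.mp hτ).2) x hx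

variable (hA : A.LiesOverPrime P.p) (h : (P.p : ℤ) ∣ P.a * P.b * P.c)
include hA h

theorem tameKer_smul_sub {τ : GQ} (hτ : τ ∈ tameKer A P.p) {x : JZero L} (hx : x ∈ R.U) :
    τ • (τ • x - x) = τ • x - x := by
  obtain ⟨hI, hχ⟩ := mem_tameKer.mp hτ
  obtain ⟨ht, hd⟩ := freyMat_inertia_p hA h hI
  rw [hχ, Units.val_one] at ht hd
  have e := R.quad τ x hx
  have hp := P.hp5
  have h2 : ((1 : ZMod P.p) + 1).val = 2 := by
    rw [show (1 : ZMod P.p) + 1 = ((2 : ℕ) : ZMod P.p) by norm_num, ZMod.val_natCast,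
      Nat.mod_eq_of_lt (by omega)]
  have h1 : (1 : ZMod P.p).val = 1 := ZMod.val_one _
  rw [ht, hd, h1, h2, one_smul, two_nsmul] at e
  rw [smul_sub, ← sub_eq_zero, ← e]
  abel

theorem tameKer_pow_smul {τ : GQ} (hτ : τ ∈ tameKer A P.p) {x : JZero L} (hx : x ∈ R.U) (n : ℕ) :
    τ ^ n • x = x + n • (τ • x - x) := by
  induction n with
  | zero => simp
  | succ n ih =>
    rw [pow_succ', mul_smul, ih, smul_add, show τ • (n • (τ • x - x)) = n • τ • (τ • x - x) from
      map_nsmul (DistribSMul.toAddMonoidHom (JZero L) τ) n _, R.tameKer_smul_sub hA h hτ hx,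
      succ_nsmul]
    abel

/-- Conjugation by inertia on `tameKer`, seen on the group. -/
theorem smul_tameKer {τ₀ τ : GQ} (h₀ : τ₀ ∈ A.inertiaSubgroupIn ℚ) (hτ : τ ∈ tameKer A P.p)
    {x : JZero L} (hx : x ∈ R.U) :
    τ₀ • τ • x = τ ^ (cyclotomicHom P.p τ₀ : ZMod P.p).val • τ₀ • x := by
  obtain ⟨F⟩ := exists_frey_frame (P := P) hA h
  set g := (cyclotomicHom P.p τ₀ : ZMod P.p).val with hg
  have hconj : τ₀ * τ * τ₀⁻¹ ∈ tameKer A P.p := by
    simpa using conj_mem_tameKer (inv_mem h₀) hτ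
  have hmem : (τ ^ g)⁻¹ * (τ₀ * τ * τ₀⁻¹) ∈ wildKer A P.freyCurveInt P.p := by
    refine F.mem_wildKer_of (mul_mem (inv_mem (pow_mem hτ _)) hconj) ?_
    obtain ⟨b, hb⟩ := F.smul_S τ (mem_tameKer.mp hτ).1
    obtain ⟨c, hc⟩ := F.smul_S _ (inv_mem h₀)
    have e : τ • τ₀⁻¹ • F.S = τ₀⁻¹ • F.S + b • F.R := by
      rw [hc, smul_add_point, hb, smul_zsmul_point, F.smul_R_of_mem hτ]
      abel
    rw [mul_smul, inv_smul_eq_iff, F.pow_smul_S hτ hb, mul_smul, mul_smul, e, smul_add_point,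
      smul_inv_smul, smul_zsmul_point, F.smul_R τ₀ h₀, ← hg, ← natCast_zsmul, ← mul_zsmul, mul_comm]
  have e := R.wildKer_smul hmem (R.stable τ₀ x hx)
  rw [mul_smul, inv_smul_eq_iff, mul_smul, mul_smul, inv_smul_smul] at e
  exact e

theorem exists_functional :
    ∃ π : R.U →+ ZMod P.p, π ≠ 0 ∧ ∀ τ (_ : τ ∈ A.inertiaSubgroupIn ℚ) (y : R.U),
      π ⟨τ • (y : JZero L), R.stable τ y y.2⟩ = π y := by
  classical
  have hp5 := P.hp5
  have hp1 : ∀ y : R.U, P.p • y = 0 := fun y => Subtype.ext (R.torsion y y.2)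
  have : Module (ZMod P.p) R.U := AddCommGroup.zmodModule hp1
  have : NeZero P.p := ⟨(Fact.out : P.p.Prime).ne_zero⟩
  have hval := coe_zmod_smul (p := P.p) R.U
  let act : GQ →* Module.End (ZMod P.p) R.U := actEnd P.p R.U R.stable
  have hact : ∀ σ (y : R.U), act σ y = (⟨σ • (y : JZero L), R.stable σ y y.2⟩ : R.U) :=
    fun _ _ => rfl
  -- a tame generator `τ₀`, with eigenvalues `1` and `g` on the residual representation
  obtain ⟨τ₀, h₀, hprim, -, hgen⟩ := exists_tame_generator (p := P.p) hA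
  set g : ZMod P.p := (cyclotomicHom P.p τ₀ : ZMod P.p) with hg
  have hg0 : g ≠ 0 := Units.ne_zero _
  have hg1 : g ^ 2 ≠ 1 := fun e => by
    have := Nat.le_of_dvd (by norm_num) (hprim 2 e)
    omega
  obtain ⟨ht, hd⟩ := freyMat_inertia_p hA h h₀
  have hquad : ∀ z : R.U, act τ₀ (act τ₀ z) = (g + 1) • act τ₀ z - g • z := fun z => by
    refine Subtype.ext ?_
    have e := R.quad τ₀ z z.2
    rw [ht, hd, ← hg, sub_add, sub_eq_zero] at e
    simp only [AddSubgroupClass.coe_sub, hval, hact]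
    exact e
  -- conjugation by `τ₀` scales the wild part by `g`
  have hN : ∀ (τ : tameKer A P.p) (z : R.U),
      act τ₀ ((act τ - LinearMap.id : R.U →ₗ[ZMod P.p] R.U) z) =
      g • (act τ - LinearMap.id : R.U →ₗ[ZMod P.p] R.U)
          (act τ₀ z) := by
    intro τ z
    refine Subtype.ext ?_
    simp only [LinearMap.sub_apply, LinearMap.id_apply, hval, hact, AddSubgroupClass.coe_sub,
      smul_sub τ₀]
    rw [R.smul_tameKer hA h h₀ τ.2 z.2, R.tameKer_pow_smul hA h τ.2 (R.stable τ₀ z z.2),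
      add_sub_cancel_left]
  -- `τ₀` is not the scalar `g` on `U`
  have hne : ∃ x : R.U, act τ₀ x ≠ g • x := by
    have hnsc : ∀ c : ZMod P.p, freyMat P τ₀ ≠ c • 1 := fun c hc => by
      rw [hc, Matrix.trace_smul, Matrix.trace_one, Fintype.card_fin, smul_eq_mul, ← hg] at ht
      rw [hc, Matrix.det_smul, Matrix.det_one, mul_one, Fintype.card_fin, ← hg] at hd
      push_cast at ht
      have h4 : (g - 1) ^ 2 = 0 := by
        linear_combination (norm := ring) (-(2 * c + g + 1)) * ht + 4 * hd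
      exact hg1 (by rw [sub_eq_zero.mp (pow_eq_zero_iff (two_ne_zero) |>.mp h4), one_pow])
    obtain ⟨x, hx, hx'⟩ := R.nonscalar τ₀ hnsc g.val
    exact ⟨⟨x, hx⟩, fun e => hx' ((congrArg Subtype.val e).trans (hval g ⟨x, hx⟩))⟩
  -- hence a functional fixed by `τ₀` and killing the wild part
  obtain ⟨φ, hφ, hφt, hφN⟩ := exists_invariant_dual (act τ₀)
    (fun τ : tameKer A P.p => act τ - LinearMap.id) hg0 hg1 hquad hN hne
  refine ⟨φ.toAddMonoidHom, fun e => hφ (LinearMap.ext fun x => DFunLike.congr_fun e x),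
    fun τ hτ y => ?_⟩
  -- every inertia element is a power of `τ₀` times a wild one
  obtain ⟨i, hi⟩ := hgen τ hτ
  have hwild : φ (act ((τ₀ ^ i)⁻¹ * τ) y) = φ y := by
    have := hφN ⟨_, hi⟩ y
    rwa [LinearMap.sub_apply, LinearMap.id_apply, map_sub, sub_eq_zero] at this
  have hpow : ∀ (j : ℕ) (z : R.U), φ (act (τ₀ ^ j) z) = φ z := fun j => by
    induction j with
    | zero => intro z; rw [pow_zero, map_one, Module.End.one_apply]
    | succ j ih => intro z; rw [pow_succ', map_mul, Module.End.mul_apply, hφt, ih]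
  show φ (act τ y) = φ y
  rw [show act τ y = act (τ₀ ^ i) (act ((τ₀ ^ i)⁻¹ * τ) y) from Subtype.ext (by
    simp only [hact, ← mul_smul, mul_inv_cancel_left]), hpow, hwild]

end ResidualSubgroup

variable {M : ℕ} [NeZero M]

/-- Without an eigenform of level `M`, the classes of the residual subgroup are flat. -/
theorem ResidualSubgroup.isFlatClass (hA : A.LiesOverPrime P.p)
    (h : (P.p : ℤ) ∣ P.a * P.b * P.c) (R : ResidualSubgroup P (P.p * M))
    [CharP (Res A) P.p] [FF.IsFunctionField (Res A) (KM A M)]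
    (S : Ctx A P.p M (FreyGood P (P.p * M)) (freyA P))
    (hno : ¬ HasForm P.p M (FreyGood P (P.p * M)) (freyA P)) {x : JZero (P.p * M)}
    (hx : x ∈ R.U) : OrdinaryAtP.IsFlatClass A M P.p S.hpM x := by
  have hp := P.hp5
  have hxe : IsEigen (P.p * M) (FreyGood P (P.p * M)) (freyA P) x := R.eigen x hx
  rcases frey_wildKer_eq_tameKer_or_exists_wild P hA h with heq | ⟨W, hWH, hW1, -, hWgen⟩
  · obtain ⟨C, hC, hCe⟩ := exists_tame_coefField (p := P.p) hA
    obtain ⟨f, hfn, -, hred⟩ := S.exists_flat_fn_tame (C := C) hno (by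
        rw [hCe]
        exact fun hd => absurd (Nat.le_of_dvd (by omega) hd) (by omega))
      hxe (R.torsion x hx) (fun τ hτ => R.wildKer_smul (A := A) (by rw [heq]; exact hC ▸ hτ) hx)
    exact isFlatClass_of_fn hfn hred
  · have hσ : W.σ ∈ tameKer A P.p := hW1 ▸ W.σ_mem
    obtain ⟨f, hfn, -, hred⟩ := S.exists_flat_fn_wild hno W hxe (R.torsion x hx)
      (fun τ hτ => R.wildKer_smul (A := A) (hWH ▸ hτ) hx) fun τ hτ => by
        obtain ⟨i, hi⟩ := hWgen τ (hW1 ▸ hτ)
        have hy : W.σ • x - x ∈ R.U := sub_mem (R.stable _ x hx) hx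
        have hfix : W.σ ^ i • (W.σ • x - x) = W.σ • x - x :=
          pow_mem (S := MulAction.stabilizer GQ (W.σ • x - x))
            (MulAction.mem_stabilizer_iff.mpr (R.tameKer_smul_sub hA h hσ hx)) i
        calc τ • (W.σ • x - x) = W.σ ^ i • (((W.σ ^ i)⁻¹ * τ) • (W.σ • x - x)) := by
              rw [← mul_smul, mul_inv_cancel_left]
          _ = W.σ ^ i • (W.σ • x - x) := by rw [R.wildKer_smul hi hy]
          _ = W.σ • x - x := hfix
    exact isFlatClass_of_fn hfn hred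

end Fermat.Agent.RT.LowerP

end
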