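import Fermat.Agent.RT.LowerP.Kummer
import Fermat.Agent.RT.MazurP.Node
import Fermat.Agent.RT.MazurP.HeckeSeries

/-!
# The Hecke relation on Kummer functions and on their reductions

If the class of `f` is an eigen class of `T_l` with eigenvalue `a`, the Hecke norm of `f` is
`κ f ^ a h ^ p`. Hence `(l + 1 - a) δ` is divisible by `p` and, with a wild generator, the orders
at the nodes are divisible by `p` once `a ≢ l + 1`.
-/

set_option autoImplicit false

noncomputable section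

namespace Fermat.Agent.RT.LowerP

open ModularCurve AlgebraicCurve Fermat.Agent.Semistable Fermat.Agent.Arith
open Fermat.Agent.RT.Mazur Fermat.Agent.RT.MazurP

variable {p : ℕ} [Fact p.Prime]

theorem gord_zpow {A : ValuationSubring QBar} {C : CoefField A p} (hA : A.LiesOverPrime p)
    {x : LSer} (hx : x ∈ fracS A) (hx0 : x ≠ 0) (hfx : C.Fix x) (n : ℤ) :
    C.gord (x ^ n) = n * C.gord x := by
  have hp : p.Prime := Fact.out
  cases n with
  | ofNat n => simpa using C.gord_pow hA hp hx hx0 hfx n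
  | negSucc n =>
    rw [zpow_negSucc, C.gord_inv hA hp (pow_mem hx _) (pow_ne_zero _ hx0) (hfx.pow _),
      C.gord_pow hA hp hx hx0 hfx, Int.negSucc_eq]
    push_cast
    ring

variable {A : ValuationSubring QBar} {M : ℕ} [NeZero M] {hpM : ¬ p ∣ M}

/-- The norm of a fixed Kummer function of an eigen class. -/
theorem exists_heckeNorm_rel {H : Subgroup GQ} {l : ℕ} [NeZero l] (hl : l.Prime)
    (hlN : ¬ l ∣ p * M) {x : JZero (p * M)} {a : ℤ}
    (hx : heckeOperatorBar (p * M) ⟨l, hl⟩ x = a • x) {f : FB (p * M)} (hfn : HasFn p x f)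
    (hfix : ∀ τ ∈ H, galF (p * M) τ f = f) :
    ∃ (κ : QBar) (h : FB (p * M)), κ ≠ 0 ∧ h ≠ 0 ∧ (∀ τ ∈ H, τ κ = κ) ∧
      (∀ τ ∈ H, galF (p * M) τ h = h) ∧
      heckeNorm (p * M) l f = algebraMap QBar (FB (p * M)) κ * f ^ a * h ^ p := by
  obtain ⟨g, hg, hgx⟩ := id hfn
  obtain ⟨h, hh, heq⟩ := exists_heckeNorm_eq (N := p * M) (m := p) l hl g a (by rw [hgx]; exact hx)
  rw [hg] at heq
  have hf0 := hfn.ne_zero
  have hhp : h ^ p = heckeNorm (p * M) l f / f ^ a := by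
    rw [heq, mul_div_cancel_left₀ _ (zpow_ne_zero _ hf0)]
  have hhfix : ∀ τ ∈ H, galF (p * M) τ (h ^ p) = h ^ p := fun τ hτ => by
    rw [hhp, map_div₀, map_zpow₀, ← heckeNorm_galF hl hlN, hfix τ hτ]
  obtain ⟨c, h', hc, hcH, h'0, h'fix, rfl⟩ := exists_fixed_root hh hhfix
  refine ⟨c ^ p, h', pow_ne_zero _ hc, h'0, hcH, h'fix, ?_⟩
  rw [heq, mul_pow, map_pow]
  ring

/-- The order of a constant times a power of a function times a power of another. -/
theorem ord_const_mul_zpow_mul_pow {k F : Type*} [Field k] [Field F] [Algebra k F] (v : Place k F)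
    {c : k} {f h : F} (hc : c ≠ 0) (hf : f ≠ 0) (hh : h ≠ 0) (a : ℤ) (n : ℕ) :
    v.ord (algebraMap k F c * f ^ a * h ^ n) = a * v.ord f + n * v.ord h := by
  rw [v.ord_mul (mul_ne_zero ((_root_.map_ne_zero _).mpr hc) (zpow_ne_zero _ hf))
      (pow_ne_zero _ hh), v.ord_mul ((_root_.map_ne_zero _).mpr hc) (zpow_ne_zero _ hf),
    FF.ord_algebraMap, zero_add, v.ord_zpow, FF.ord_pow v]

omit [Fact p.Prime] [NeZero M] in
/-- The orders of a constant times a power of a function times a `p`-th power are divisible by `p`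
when those of the function are. -/
private theorem dvd_ord_const_mul_zpow_mul_pow {κ : QBar} {f h : FB (p * M)} (hκ : κ ≠ 0)
    (hf : f ≠ 0) (hh : h ≠ 0) (a : ℤ) (v : Place QBar (FB (p * M))) (hv : (p : ℤ) ∣ v.ord f) :
    (p : ℤ) ∣ v.ord (algebraMap QBar (FB (p * M)) κ * f ^ a * h ^ p) := by
  rw [ord_const_mul_zpow_mul_pow v hκ hf hh]
  exact dvd_add (hv.mul_left a) (dvd_mul_right _ _)

variable {C : CoefField A p}

/-- The expansion of the norm on either side. -/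
theorem qExpand_iota_heckeNorm {l : ℕ} [NeZero l] (hl : l.Prime) (hlN : ¬ l ∣ p * M) (s : Fin 2)
    (f : FB (p * M)) : ∀ ζ : QBarˣ, IsPrimitiveRoot ζ l →
      qExpand QBar l (iota2 M p hpM s (heckeNorm (p * M) l f)) =
        heckeProd l ζ (iota2 M p hpM s f) :=
  fun _ hζ => qExpand_iota2_heckeNorm p M l hpM hl hlN s hζ f

/-- If `g` reduces to one on a side, so does its Hecke norm. -/
private theorem exists_red_heckeNorm_eq_one [CharP (Res A) p] {l : ℕ} [NeZero l] (hl : l.Prime)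
    (hlN : ¬ l ∣ p * M) (hA : A.LiesOverPrime p) {ζ : QBarˣ} (hζ : IsPrimitiveRoot ζ l) {s : Fin 2}
    {g : FB (p * M)} (hg : ∃ h : iota2 M p hpM s g ∈ locS A, redL A ⟨_, h⟩ = 1) :
    ∃ h : iota2 M p hpM s (heckeNorm (p * M) l g) ∈ locS A, redL A ⟨_, h⟩ = 1 := by
  have hp : p.Prime := Fact.out
  obtain ⟨hm, e⟩ := hg
  obtain ⟨hm', e'⟩ := heckeProd_mem_locS (l := l) hζ.pow_eq_one hm
  have hq := qExpand_iota_heckeNorm (hpM := hpM) hl hlN s g ζ hζ
  obtain ⟨hy, ey⟩ := locS_of_qExpand (l := l) hA hp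
    (iota2_fracS M p hpM s (heckeNorm (p * M) l g)) (hq ▸ hm')
  refine ⟨hy, qExpand_injective l ?_⟩
  rw [ey, redL_congr _ hm' hq, e', e, map_one, map_one]

variable (K : Kum hpM C)

section Eigen

variable {l : ℕ} [NeZero l] (hl : l.Prime) (hlN : ¬ l ∣ p * M) {x : JZero (p * M)} {a : ℤ}
  (hx : heckeOperatorBar (p * M) ⟨l, hl⟩ x = a • x) (hfn : HasFn p x K.f)
include hl hlN hx hfn

/-- `(l + 1 - a) δ ≡ 0`. -/
theorem _root_.Fermat.Agent.RT.MazurP.Kum.dvd_mul_δ (hA : A.LiesOverPrime p) :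
    (p : ℤ) ∣ ((l : ℤ) + 1 - a) * K.δ := by
  have hp : p.Prime := Fact.out
  obtain ⟨κ, h, hκ, hh, hκf, hhf, heq⟩ := exists_heckeNorm_rel hl hlN hx hfn K.fix
  have key : ∀ s, ((l : ℤ) + 1 - a) * K.v s =
      C.gord (algebraMap QBar LSer κ) + p * C.gord (iota2 M p hpM s h) := by
    intro s
    have hi0 : iota2 M p hpM s K.f ≠ 0 := (_root_.map_ne_zero _).mpr K.f_ne
    have hih : iota2 M p hpM s h ≠ 0 := (_root_.map_ne_zero _).mpr hh
    have hk0 : algebraMap QBar LSer κ ≠ 0 := (_root_.map_ne_zero _).mpr hκ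
    have hFa : C.Fix (iota2 M p hpM s K.f ^ a) := fun τ hτ => by
      rw [map_zpow₀, K.iota_fix s τ hτ]
    have hfa : iota2 M p hpM s K.f ^ a ∈ fracS A := zpow_mem (iota2_fracS M p hpM s K.f) a
    have h1 := gord_heckeImage (C := C) hA hp (iota2_fracS M p hpM s K.f) hi0 (K.iota_fix s)
      (iota2_fracS M p hpM s (heckeNorm (p * M) l K.f)) (qExpand_iota_heckeNorm hl hlN s K.f)
    rw [Kum.v_eq_gord, heq, map_mul, map_mul, AlgHom.commutes, map_zpow₀, map_pow,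
      C.gord_mul hA hp (mul_mem (algebraMap_mem_fracS κ) hfa)
        (pow_mem (iota2_fracS M p hpM s h) p) (mul_ne_zero hk0 (zpow_ne_zero _ hi0))
        (pow_ne_zero _ hih) ((CoefField.fix_algebraMap hκf).mul hFa) ((fix_iota hhf s).pow p),
      C.gord_mul hA hp (algebraMap_mem_fracS κ) hfa hk0 (zpow_ne_zero _ hi0)
        (CoefField.fix_algebraMap hκf) hFa,
      gord_zpow hA (iota2_fracS M p hpM s K.f) hi0 (K.iota_fix s), Kum.v_eq_gord,
      C.gord_pow hA hp (iota2_fracS M p hpM s h) hih (fix_iota hhf s)] at h1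
    linarith
  refine ⟨C.gord (iota2 M p hpM 1 h) - C.gord (iota2 M p hpM 0 h), ?_⟩
  rw [Kum.δ]
  linear_combination key 1 - key 0

/-- The image of a reduction is a constant times its power times a `p`-th power. -/
theorem _root_.Fermat.Agent.RT.MazurP.Kum.exists_red_rel [CharP (Res A) p] (hA : A.LiesOverPrime p)
    (hM : (M : Res A) ≠ 0)
    (s : Fin 2) :
    ∃ (u : Res A) (hb : KM A M) (X : KM A M), u ≠ 0 ∧ hb ≠ 0 ∧
      X = algebraMap (Res A) (KM A M) u * K.fb s ^ a * hb ^ p ∧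
      IsRed A (iota2 M p hpM s (heckeNorm (p * M) l K.f)) (X : LaurentSeries (Res A)) ∧
      IsHeckeImage l (K.fb s : LaurentSeries (Res A)) (X : LaurentSeries (Res A)) := by
  have hp : p.Prime := Fact.out
  obtain ⟨κ, h, hκ, hh, -, hhf, heq⟩ := exists_heckeNorm_rel hl hlN hx hfn K.fix
  obtain ⟨hb, hb0, hbred, -⟩ := exists_gord_red (C := C) (hpM := hpM) hA hM hh hhf s
  have hlp : ¬ p ∣ l := fun hd => hlN (dvd_mul_of_dvd_left
    (dvd_of_eq ((Nat.prime_dvd_prime_iff_eq hp hl).mp hd).symm) M)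
  obtain ⟨X, hX, hXim⟩ := exists_isRed_heckeImage (l := l) hA hp hlp
    (iota2_fracS M p hpM s (heckeNorm (p * M) l K.f)) (qExpand_iota_heckeNorm hl hlN s K.f)
    (K.isRed s)
  have hprod : IsRed A (iota2 M p hpM s (heckeNorm (p * M) l K.f))
      ((K.fb s ^ a * hb ^ p : KM A M) : LaurentSeries (Res A)) := by
    have h1 := ((IsRed.const (A := A) hκ).mul ((K.isRed s).zpow a)).mul (hbred.pow p)
    rw [one_mul] at h1
    rw [heq, map_mul, map_mul, AlgHom.commutes, map_zpow₀, map_pow]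
    convert h1 using 1
    push_cast
    rfl
  obtain ⟨u, hu, e⟩ := hprod.unique hX
  refine ⟨u, hb, algebraMap (Res A) (KM A M) u * K.fb s ^ a * hb ^ p, hu, hb0, rfl, ?_⟩
  have e' : ((algebraMap (Res A) (KM A M) u * K.fb s ^ a * hb ^ p : KM A M) :
      LaurentSeries (Res A)) = X := by
    rw [e, mul_assoc]
    rfl
  rw [e']
  exact ⟨hX, hXim⟩

variable {K}

/-- The orders of the reductions of a Kummer datum of the norm. -/
private theorem exists_ord_fb_heckeNorm [CharP (Res A) p] (hA : A.LiesOverPrime p)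
    (hM : (M : Res A) ≠ 0) {K' : Kum hpM C} (hK' : K'.f = heckeNorm (p * M) l K.f)
    (P : Place (Res A) (KM A M)) (s : Fin 2) :
    ∃ j : ℤ, P.ord (K'.fb s) = a * P.ord (K.fb s) + p * j := by
  obtain ⟨u, hb, X, hu, hb0, rfl, hXred, -⟩ := K.exists_red_rel hl hlN hx hfn hA hM s
  have hK's := K'.isRed s
  rw [hK'] at hK's
  obtain ⟨w, hw, e⟩ := hXred.unique hK's
  have e' : K'.fb s = algebraMap (Res A) (KM A M) w *
      (algebraMap (Res A) (KM A M) u * K.fb s ^ a * hb ^ p) := Subtype.ext e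
  refine ⟨P.ord hb, ?_⟩
  rw [e', ← mul_assoc, ← mul_assoc, ← map_mul,
    ord_const_mul_zpow_mul_pow P (mul_ne_zero hw hu) (K.fb_ne s) hb0]

omit hfn in
/-- In the wild case, when `a ≢ l + 1`, the orders at the nodes are divisible by `p`. -/
theorem _root_.Fermat.Agent.RT.MazurP.SigmaRel.dvd_ord_node [CharP (Res A) p]
    [FF.IsFunctionField (Res A) (KM A M)]
    {W : Wild A p} {K : Kum hpM W.C} (R : SigmaRel W K) (hA : A.LiesOverPrime p)
    (hM : (M : Res A) ≠ 0) (V : VUnit A hpM) (hV : V.Simple) (hfn : HasFn p x K.f)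
    {x₀ : JZero (p * M)} (hx₀ : heckeOperatorBar (p * M) ⟨l, hl⟩ x₀ = a • x₀)
    (hfn₀ : HasFn p x₀ R.f₀) (hal : ¬ (p : ℤ) ∣ (l : ℤ) + 1 - a)
    {P : Place (Res A) (KM A M)} (hP : V.oW P = 12) :
    (p : ℤ) ∣ K.s₀ P ∧ (p : ℤ) ∣ K.t₀ P := by
  classical
  have hp : p.Prime := Fact.out
  obtain ⟨r, hr⟩ := R.exists_red_const V hA hM hV
  obtain ⟨ζ, hζ⟩ := exists_primitive (l := l)
  -- the norm of `f`
  obtain ⟨κ, h, hκ, hh, hκf, hhf, heq⟩ := exists_heckeNorm_rel hl hlN hx hfn K.fix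
  have hfix' : ∀ τ ∈ W.C.H, galF (p * M) τ (heckeNorm (p * M) l K.f) =
      heckeNorm (p * M) l K.f := fun τ hτ => by
    rw [← heckeNorm_galF hl hlN, K.fix τ hτ]
  have hdvd' : ∀ v : Place QBar (FB (p * M)), (p : ℤ) ∣ v.ord (heckeNorm (p * M) l K.f) :=
    fun v => heq ▸ dvd_ord_const_mul_zpow_mul_pow hκ K.f_ne hh a v (K.dvd v)
  obtain ⟨K', hK'⟩ := Kum.exists_of (C := W.C) (hpM := hpM) hA hM (heckeNorm_ne_zero K.f_ne)
    hdvd' hfix'
  -- the norm of the fixed factor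
  obtain ⟨κ₀, h₀, hκ₀, hh₀, -, -, heq₀⟩ :=
    exists_heckeNorm_rel hl hlN hx₀ hfn₀ (H := W.C₁.H) R.f₀_fix
  have hdvd₀ : ∀ v : Place QBar (FB (p * M)), (p : ℤ) ∣ v.ord (heckeNorm (p * M) l R.f₀) :=
    fun v => heq₀ ▸ dvd_ord_const_mul_zpow_mul_pow hκ₀ R.f₀_ne hh₀ a v (R.f₀_dvd v)
  have hred₀ : ∀ s, ∃ h : iota2 M p hpM s (heckeNorm (p * M) l R.f₀) ∈ locS A,
      redL A ⟨_, h⟩ = 1 := fun s => exists_red_heckeNorm_eq_one hl hlN hA hζ (R.f₀_red s)
  -- the norm of `q`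
  have hy' : ∀ s, ∃ y₁, ∃ h : y₁ ∈ locS A,
      iota2 M p hpM s (heckeNorm (p * M) l R.q) = 1 + algebraMap QBar LSer W.C.π * y₁ ∧
        redL A ⟨y₁, h⟩ = algebraMap (Res A) (LaurentSeries (Res A)) (((l : Res A) + 1) * r s) :=
    fun s => heckeImage_congr_one hA hp W.C.π_nonunit W.C.π_ne_zero (R.y_mem s) (hr s)
      (iota2_fracS M p hpM s _) hζ (by
        rw [← R.q_eq s]; exact qExpand_iota_heckeNorm hl hlN s R.q ζ hζ)
  choose y' hy'm hy'eq hy'red using hy'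
  let R' : SigmaRel W K' :=
    { f₀ := heckeNorm (p * M) l R.f₀
      f₀_ne := heckeNorm_ne_zero R.f₀_ne
      f₀_dvd := hdvd₀
      f₀_fix := fun τ hτ => by rw [← heckeNorm_galF hl hlN, R.f₀_fix τ hτ]
      f₀_red := hred₀
      q := heckeNorm (p * M) l R.q
      q_fix := fun τ hτ => by rw [← heckeNorm_galF hl hlN, R.q_fix τ hτ]
      y := y'
      y_mem := hy'm
      q_eq := hy'eq
      κ := R.κ ^ (l + 1)
      κ_ne := pow_ne_zero _ R.κ_ne
      rel := by
        rw [hK', ← heckeNorm_galF hl hlN, R.rel, map_mul, map_mul, map_mul,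
          heckeNorm_algebraMap hl hlN, map_pow, map_pow] }
  obtain ⟨d, hd, hs, ht⟩ := R.node_eq V hA hM hV hr hP
  obtain ⟨d', hd', hs', ht'⟩ := R'.node_eq V hA hM hV (r := fun s => ((l : Res A) + 1) * r s)
    hy'red hP
  have hp0 : (p : ℤ) ≠ 0 := Int.natCast_ne_zero.mpr hp.ne_zero
  -- orders of the reductions of the norm
  have hv : ∀ s, K'.v s = ((l : ℤ) + 1) * K.v s := fun s => by
    rw [← K'.v_eq_gord, hK', gord_heckeImage (C := W.C) hA hp (iota2_fracS M p hpM s K.f)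
      ((_root_.map_ne_zero _).mpr K.f_ne) (K.iota_fix s) (iota2_fracS M p hpM s _)
      (qExpand_iota_heckeNorm hl hlN s K.f), K.v_eq_gord]
  have hdd : d' = ((l : ℤ) + 1) * d := by
    refine mul_left_cancel₀ hp0 ?_
    rw [← hd', Kum.δ, hv, hv]
    rw [Kum.δ] at hd
    linear_combination ((l : ℤ) + 1) * hd
  have hord : ∀ s, ∃ j : ℤ, P.ord (K'.fb s) = a * P.ord (K.fb s) + p * j :=
    exists_ord_fb_heckeNorm hl hlN hx hfn hA hM hK' P
  obtain ⟨j₀, hj₀⟩ := hord 0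
  obtain ⟨j₁, hj₁⟩ := hord 1
  have hs0 : K'.s₀ P = a * K.s₀ P + p * j₀ := hj₀
  have ht0 : K'.t₀ P = a * K.t₀ P + p * j₁ := hj₁
  have hcast : ∀ z : ℤ, (((l : ℤ) + 1 - a) * z : ℤ) * IsLocalRing.residue A W.u = 0 →
      (p : ℤ) ∣ z := fun z hz => by
    have h1 := (mul_eq_zero.mp hz).resolve_right W.u_ne
    rw [CharP.intCast_eq_zero_iff (Res A) p] at h1
    exact ((Nat.prime_iff_prime_int.mp hp).dvd_mul.mp h1).resolve_left hal
  refine ⟨hcast _ ?_, hcast _ ?_⟩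
  · rw [hdd, hs0] at hs'
    push_cast at hs hs' ⊢
    rw [CharP.cast_eq_zero (Res A) p] at hs'
    linear_combination ((l : Res A) + 1) * hs - hs'
  · rw [hdd, ht0] at ht'
    push_cast at ht ht' ⊢
    rw [CharP.cast_eq_zero (Res A) p] at ht'
    linear_combination -((l : Res A) + 1) * ht + ht'

end Eigen

end Fermat.Agent.RT.LowerP

end
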