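import Fermat.Agent.RT.MazurP.Lift
import Fermat.Agent.RT.Mazur.Rational
import Fermat.Agent.OrdinaryAtP.Basic

/-!
# Kummer functions of torsion classes with coefficients in a ramified field

Fixed Kummer functions, the normalisation of `p`-th roots by leading coefficients, and the change
of a Kummer function by a `p`-th power to one with both reductions one.
-/

set_option autoImplicit false

noncomputable section

namespace Fermat.Agent.RT.LowerP

open ModularCurve AlgebraicCurve Fermat.Agent.Semistable Fermat.Agent.Arith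
open Fermat.Agent.RT.Mazur Fermat.Agent.RT.MazurP

variable {N p : ℕ} [NeZero N] [Fact p.Prime]

/-- `f` is a Kummer function of the class `x`. -/
def HasFn (p : ℕ) [NeZero p] (x : JZero N) (f : FB N) : Prop :=
  ∃ g : JacTorsion.divGrp QBar (FB N) p, ((g : (FB N)ˣ) : FB N) = f ∧
    (JacTorsion.toTorsion (Additive.ofMul g) : JZero N) = x

namespace HasFn

variable {x y : JZero N} {f g : FB N}

/-- A Kummer function is nonzero. -/
theorem ne_zero (h : HasFn p x f) : f ≠ 0 := by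
  obtain ⟨u, rfl, -⟩ := h
  exact Units.ne_zero _

theorem dvd (h : HasFn p x f) (v : Place QBar (FB N)) : (p : ℤ) ∣ v.ord f := by
  obtain ⟨u, rfl, -⟩ := h
  exact u.2 v

theorem mul (hx : HasFn p x f) (hy : HasFn p y g) : HasFn p (x + y) (f * g) := by
  obtain ⟨u, rfl, hu⟩ := hx
  obtain ⟨v, rfl, hv⟩ := hy
  exact ⟨u * v, rfl, by rw [← hu, ← hv, ofMul_mul, map_add]; rfl⟩

theorem pow_mem (h : g ≠ 0) : HasFn p (0 : JZero N) (g ^ p) := by
  have hmem : (Units.mk0 g h) ^ p ∈ JacTorsion.divGrp QBar (FB N) p := fun v => by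
    rw [Units.val_pow_eq_pow_val, Units.val_mk0, FF.ord_pow v]
    exact dvd_mul_right _ _
  refine ⟨⟨_, hmem⟩, by simp, ?_⟩
  have := (JacTorsion.toTorsion_eq_zero_iff ⟨_, hmem⟩).mpr ⟨Units.mk0 g h, rfl⟩
  exact congrArg Subtype.val this

/-- A function with the same class differs by a `p`-th power. -/
theorem exists_pow (hx : HasFn p x f) (hy : HasFn p x g) : ∃ h : FB N, h ≠ 0 ∧ g = f * h ^ p := by
  obtain ⟨u, rfl, hu⟩ := hx
  obtain ⟨v, rfl, hv⟩ := hy
  have h0 : JacTorsion.toTorsion (Additive.ofMul (v * u⁻¹)) = 0 := by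
    rw [ofMul_mul, ofMul_inv, map_add, map_neg, add_neg_eq_zero]
    exact Subtype.ext (hv.trans hu.symm)
  obtain ⟨w, hw⟩ := (JacTorsion.toTorsion_eq_zero_iff _).mp h0
  refine ⟨w, w.ne_zero, ?_⟩
  have h1 := congrArg (fun t : (FB N)ˣ => (t : FB N)) hw
  simp only [powMonoidHom_apply, Subgroup.coe_subtype, Units.val_pow_eq_pow_val, Subgroup.coe_mul,
    Subgroup.coe_inv, Units.val_mul,
    Units.val_inv_eq_inv_val] at h1
  rw [h1]
  field_simp [Units.ne_zero]

theorem galF (σ : GQ) (hx : HasFn p x f) : HasFn p (σ • x) (Semistable.galF N σ f) := by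
  obtain ⟨u, rfl, rfl⟩ := hx
  set γ := arithmeticGalois (L := AlgebraicClosure ℚ) (modularFunctionFieldFull N) σ
  set f' : FB N := Semistable.galF N σ ((u : (FB N)ˣ) : FB N) with hf'
  have hf0 : f' ≠ 0 := (_root_.map_ne_zero _).mpr (Units.ne_zero _)
  have hord : ∀ v : Place QBar (FB N), v.ord f' = (γ⁻¹ • v).ord ((u : (FB N)ˣ) : FB N) :=
    fun v => by
    have := SemilinearAut.ord_smul γ (γ⁻¹ • v) ((u : (FB N)ˣ) : FB N)
    rwa [smul_inv_smul] at this
  have hmem : Units.mk0 f' hf0 ∈ JacTorsion.divGrp QBar (FB N) p := fun v => by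
    rw [Units.val_mk0, hord]
    exact u.2 _
  refine ⟨⟨_, hmem⟩, rfl, ?_⟩
  refine congrArg Pic0.mk (Subtype.ext ?_)
  refine JacTorsion.eq_of_smul_eq (m := p) ?_
  show (p : ℤ) • JacTorsion.divQuot ⟨_, hmem⟩ = (p : ℤ) • (γ • JacTorsion.divQuot u)
  rw [smul_comm (p : ℤ), JacTorsion.smul_divQuot, JacTorsion.smul_divQuot]
  refine Finsupp.ext fun v => ?_
  rw [SemilinearAut.divisor_smul_apply, FF.div_apply, FF.div_apply]
  exact hord v

end HasFn

/-! ### Leading coefficients -/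

/-- The leading coefficient of the expansion at infinity. -/
def lead (y : FB N) : QBar := (y : LSer).leadingCoeff

omit [NeZero N] in
theorem lead_ne_zero {y : FB N} (hy : y ≠ 0) : lead y ≠ 0 :=
  HahnSeries.leadingCoeff_ne_zero.mpr fun h => hy (Subtype.ext h)

omit [NeZero N] in
theorem lead_mul (y z : FB N) : lead (y * z) = lead y * lead z := by
  show ((y : LSer) * (z : LSer)).leadingCoeff = _
  rw [HahnSeries.leadingCoeff_mul]
  rfl

omit [NeZero N] in
theorem lead_algebraMap (c : QBar) : lead (algebraMap QBar (FB N) c) = c := by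
  show (algebraMap QBar LSer c).leadingCoeff = c
  rw [algebraMap_laurentSeries_eq_single, HahnSeries.leadingCoeff_of_single]

omit [NeZero N] in
theorem lead_pow (y : FB N) : ∀ n : ℕ, lead (y ^ n) = lead y ^ n
  | 0 => by
    rw [pow_zero, pow_zero, ← map_one (algebraMap QBar (FB N)), lead_algebraMap]
  | n + 1 => by rw [pow_succ, pow_succ, lead_mul, lead_pow y n]

omit [NeZero N] in
theorem lead_galF (τ : GQ) (y : FB N) : lead (galF N τ y) = τ (lead y) := by
  show ((galF N τ y : FB N) : LSer).leadingCoeff = _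
  rw [coe_arithmeticRingAut, JacTorsion.coeffMap_leadingCoeff]
  rfl

/-- A function with fixed `p`-th power is a constant times a fixed one. -/
theorem exists_fixed_root {H : Subgroup GQ} {h : FB N} (hh : h ≠ 0)
    (hfix : ∀ τ ∈ H, galF N τ (h ^ p) = h ^ p) :
    ∃ (c : QBar) (h' : FB N), c ≠ 0 ∧ (∀ τ ∈ H, τ (c ^ p) = c ^ p) ∧ h' ≠ 0 ∧
      (∀ τ ∈ H, galF N τ h' = h') ∧ h = algebraMap QBar (FB N) c * h' := by
  have hp : p.Prime := Fact.out
  set c := lead h with hc
  have hc0 : c ≠ 0 := lead_ne_zero hh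
  have hcH : ∀ τ ∈ H, τ (c ^ p) = c ^ p := fun τ hτ => by
    rw [hc, ← lead_pow, ← lead_galF, hfix τ hτ]
  set h' : FB N := algebraMap QBar (FB N) c⁻¹ * h with hh'
  have h'0 : h' ≠ 0 := mul_ne_zero ((_root_.map_ne_zero _).mpr (inv_ne_zero hc0)) hh
  have hl : lead h' = 1 := by rw [hh', lead_mul, lead_algebraMap, ← hc, inv_mul_cancel₀ hc0]
  refine ⟨c, h', hc0, hcH, h'0, fun τ hτ => ?_, by
    rw [hh', ← mul_assoc, ← map_mul, mul_inv_cancel₀ hc0, map_one, one_mul]⟩
  have hpow : galF N τ h' ^ p = h' ^ p := by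
    rw [hh', ← map_pow, mul_pow, map_mul, hfix τ hτ, ← map_pow,
      arithmeticRingAut_algebraMap, inv_pow, map_inv₀, hcH τ hτ]
  obtain ⟨d, hd⟩ : ∃ d : QBar, galF N τ h' / h' = algebraMap QBar (FB N) d := by
    have : FF.IsFunctionField QBar (FB N) := ModFun.isFunctionField_bar N
    refine FF.eq_algebraMap_of_ord_nonneg fun v => le_of_eq ?_
    have h1 : (galF N τ h' / h') ^ p = 1 := by rw [div_pow, hpow, div_self (pow_ne_zero _ h'0)]
    have h2 := congrArg v.ord h1
    rw [FF.ord_pow v, v.ord_one, mul_eq_zero] at h2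
    exact (h2.resolve_left (Int.natCast_ne_zero.mpr hp.ne_zero)).symm
  rw [div_eq_iff h'0] at hd
  have h3 := congrArg lead hd
  rw [lead_galF, hl, map_one, lead_mul, lead_algebraMap, hl, mul_one] at h3
  rw [hd, ← h3, map_one, one_mul]

/-- A torsion class fixed by `H` has a Kummer function fixed by `H`. -/
theorem exists_fixed_fn (H : Subgroup GQ) {x : JZero N} (hpx : p • x = 0)
    (hx : ∀ τ ∈ H, τ • x = x) :
    ∃ f : FB N, HasFn p x f ∧ ∀ τ ∈ H, galF N τ f = f := by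
  have : FF.IsFunctionField QBar (FB N) := ModFun.isFunctionField_bar N
  let x' : Pic0.torsion QBar (FB N) p :=
    ⟨x, Pic0.mem_torsion.mpr (by rw [natCast_zsmul]; exact hpx)⟩
  obtain ⟨f, hfx, -, hfix⟩ := exists_fixed_kummer
    (S := arithmeticGalois (L := AlgebraicClosure ℚ) (modularFunctionFieldFull N) '' (H : Set GQ))
    (P₀ := Fermat.Agent.Mazur.Eisenstein.placeInf N)
    (by rintro _ ⟨τ, -, rfl⟩; exact Mazur.Eisenstein.galois_smul_placeInf _ τ)
    lead (fun c y => by rw [lead_mul, lead_algebraMap]) (fun y hy => lead_ne_zero hy)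
    (by rintro _ ⟨τ, -, rfl⟩ y; exact lead_galF τ y)
    (x := x') (by rintro _ ⟨τ, hτ, rfl⟩; exact hx τ hτ)
  exact ⟨_, ⟨f, rfl, congrArg Subtype.val hfx⟩, fun τ hτ => hfix _ ⟨τ, hτ, rfl⟩⟩

/-! ### Functions of level `p M` -/

section Level

variable {A : ValuationSubring QBar} {M : ℕ} [NeZero M] {hpM : ¬ p ∣ M}
  {C : CoefField A p}

/-- The expansions of an invariant function have fixed coefficients. -/
theorem fix_iota {y : FB (p * M)} (hy : ∀ τ ∈ C.H, galF (p * M) τ y = y) (s : Fin 2) :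
    C.Fix (iota2 M p hpM s y) := fun τ hτ => by rw [← iota2_galF, hy τ hτ]

/-- Orders and reductions of a fixed function. -/
theorem exists_gord_red [CharP (Res A) p] (hA : A.LiesOverPrime p) (hM : (M : Res A) ≠ 0)
    {y : FB (p * M)} (hy0 : y ≠ 0) (hy : ∀ τ ∈ C.H, galF (p * M) τ y = y) (s : Fin 2) :
    ∃ b : KM A M, b ≠ 0 ∧ IsRed A (iota2 M p hpM s y) (b : LaurentSeries (Res A)) ∧
      IsGUnit A (algebraMap QBar LSer (C.π ^ (-C.gord (iota2 M p hpM s y))) *
        iota2 M p hpM s y) := by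
  have h := C.gord_spec hA Fact.out (iota2_fracS M p hpM s y)
    ((_root_.map_ne_zero _).mpr hy0) (fix_iota hy s)
  obtain ⟨hm, hne⟩ := id h
  have hred : IsRed A (iota2 M p hpM s y) (redL A ⟨_, hm⟩) :=
    ⟨hne, _, zpow_ne_zero _ C.π_ne_zero, hm, rfl⟩
  exact ⟨⟨_, isRed_mem_KM p M hpM hA hM hred⟩, fun h0 => hne (congrArg Subtype.val h0), hred, h⟩

theorem _root_.Fermat.Agent.RT.MazurP.Kum.isRed (K : Kum hpM C) (s : Fin 2) :
    IsRed A (iota2 M p hpM s K.f) (K.fb s : LaurentSeries (Res A)) := by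
  obtain ⟨h, e⟩ := K.spec s
  exact ⟨fun h0 => K.fb_ne s (Subtype.ext h0), _, zpow_ne_zero _ C.π_ne_zero, h, e⟩

theorem _root_.Fermat.Agent.RT.MazurP.Kum.v_eq_gord (K : Kum hpM C) (s : Fin 2) :
    C.gord (iota2 M p hpM s K.f) =
    K.v s := by
  obtain ⟨h, e⟩ := K.spec s
  exact CoefField.gord_eq ⟨h, fun h0 => K.fb_ne s (Subtype.ext (e.symm.trans h0))⟩

variable [CharP (Res A) p] [FF.IsFunctionField (Res A) (KM A M)]

/-- A Kummer function with `p ∣ δ` and reductions `p`-th powers can be changed by a `p`-th power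
and a constant to one with both reductions one. -/
theorem _root_.Fermat.Agent.RT.MazurP.Kum.exists_unit_red (K : Kum hpM C) (hA : A.LiesOverPrime p)
    (hM : (M : Res A) ≠ 0)
    (V : VUnit A hpM) (hV : V.Simple) (hδ : (p : ℤ) ∣ K.δ) (hw : ∀ s, ∃ w : KM A M,
      w ^ p = K.fb s) :
    ∃ (κ : QBar) (φ : FB (p * M)), κ ≠ 0 ∧ φ ≠ 0 ∧ (∀ τ ∈ C.H, τ κ = κ) ∧
      (∀ τ ∈ C.H, galF (p * M) τ φ = φ) ∧
      ∀ s, ∃ h : iota2 M p hpM s (algebraMap QBar (FB (p * M)) κ * K.f * φ ^ p) ∈ locS A,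
        redL A ⟨_, h⟩ = 1 := by
  have hp : p.Prime := Fact.out
  obtain ⟨d, hd⟩ := hδ
  choose w hw using hw
  have hw0 : ∀ s, w s ≠ 0 := fun s h0 => K.fb_ne s (by rw [← hw, h0, zero_pow hp.ne_zero])
  obtain ⟨φ, hφ0, hφf, hφ⟩ := exists_fixed_pair (C := C) hA hM V hV (fun s => (w s)⁻¹)
    (fun s => inv_ne_zero (hw0 s)) (-d)
  choose h hr using hφ
  choose g hg using K.spec
  refine ⟨C.π ^ (-K.v 0), φ, zpow_ne_zero _ C.π_ne_zero, hφ0, fun τ hτ => by
    rw [map_zpow₀, C.π_fixed τ hτ], hφf, fun s => ?_⟩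
  have e : iota2 M p hpM s (algebraMap QBar (FB (p * M)) (C.π ^ (-K.v 0)) * K.f * φ ^ p) =
      algebraMap QBar LSer (C.π ^ (-K.v s)) * iota2 M p hpM s K.f *
        (algebraMap QBar LSer (C.π ^ (-(![0, -d] s))) * iota2 M p hpM s φ) ^ p := by
    have he : -K.v 0 = -K.v s + -(![0, -d] s) * (p : ℤ) := by
      fin_cases s
      · simp
      · simp only [Fin.mk_one, Matrix.cons_val_one, Matrix.cons_val_fin_one]
        rw [Kum.δ] at hd
        linarith
    rw [map_mul, map_mul, map_pow, AlgHom.commutes, he, zpow_add₀ C.π_ne_zero, zpow_mul,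
      zpow_natCast, map_mul, map_pow, mul_pow]
    ring
  have hm := mul_mem (g s) (pow_mem (h s) p)
  refine ⟨e ▸ hm, ?_⟩
  rw [redL_congr _ hm e,
    show (⟨_, hm⟩ : locS A) = ⟨_, g s⟩ * ⟨_, h s⟩ ^ p from rfl, map_mul, map_pow, hg s, hr s,
    IntermediateField.coe_inv, ← hw s, IntermediateField.coe_pow, ← mul_pow,
    mul_inv_cancel₀ (fun h0 => hw0 s (Subtype.ext h0)), one_pow]

end Level

end Fermat.Agent.RT.LowerP

end
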