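import Fermat.Agent.RT.Assembly.Forms
import Fermat.Agent.RT.Assembly.Tame
import Fermat.Agent.RT.InertiaTW.Inertia
import Fermat.Agent.RT.LowerB.Conj
import Fermat.Agent.Carayol.Consumer
import Fermat.Agent.Carayol.Bound
import Fermat.Agent.GaloisReps.Models
import Fermat.Agent.Deform.Matrix

/-!
# A newform congruent to the Frey representation has level not exactly divisible by four

The representation of such a newform is residually unipotent on inertia at `2`; the tame relation
makes it unipotent, which the Carayol bound forbids when `4` exactly divides the level.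
-/

set_option autoImplicit false

noncomputable section

open WeierstrassCurve Polynomial
open CongruenceSubgroup ModularFormClass

namespace Fermat.Agent.RT.LowerP

open Arith (QBar GQ)
open Fermat.Agent.RT.Assembly

/-- Modulo a power of the maximal ideal, a `2 × 2` matrix with trace and determinant congruent to
`2` and `1` has `p`-power order. -/
private theorem exists_pow_prime_pow_mk_eq_one {R : Type} [CommRing R] [IsLocalRing R] {p : ℕ}
    [Fact p.Prime] (hpR : (p : R) ∈ IsLocalRing.maximalIdeal R) {X : Matrix (Fin 2) (Fin 2) R}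
    (ht : X.trace - 2 ∈ IsLocalRing.maximalIdeal R) (hd : X.det - 1 ∈ IsLocalRing.maximalIdeal R)
    (n : ℕ) :
    ∃ k, (Ideal.Quotient.mk (IsLocalRing.maximalIdeal R ^ n)).mapMatrix X ^ p ^ k = 1 := by
  set 𝔪 := IsLocalRing.maximalIdeal R
  refine InertiaTW.exists_pow_prime_pow_eq_one (n := n) (m := 2 * n) ?_ ?_
  · rw [← map_natCast (Matrix.scalar (Fin 2) : R ⧸ 𝔪 ^ n →+* _),
      ← map_natCast (Ideal.Quotient.mk (𝔪 ^ n)), ← map_pow, ← map_pow,
      Ideal.Quotient.eq_zero_iff_mem.mpr (Ideal.pow_mem_pow hpR n), map_zero]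
  -- by Cayley–Hamilton the entries of `((X - 1) ^ 2) ^ m` lie in the `m`-th power of the ideal
  have hsq : ∀ i j : Fin 2, ((X - 1) ^ 2 : Matrix (Fin 2) (Fin 2) R) i j ∈ 𝔪 := by
    rw [Matrix.trace_fin_two] at ht
    rw [Matrix.det_fin_two] at hd
    intro i j
    rw [sq]
    fin_cases i <;> fin_cases j <;> simp [Matrix.mul_apply, Fin.sum_univ_two]
    · convert sub_mem (Ideal.mul_mem_right (X 0 0) _ ht) hd using 1; ring
    · convert Ideal.mul_mem_right (X 0 1) _ ht using 1; ring
    · convert Ideal.mul_mem_right (X 1 0) _ ht using 1; ring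
    · convert sub_mem (Ideal.mul_mem_right (X 1 1) _ ht) hd using 1; ring
  rw [← map_one (Ideal.Quotient.mk (𝔪 ^ n)).mapMatrix, ← map_sub, ← map_pow, pow_mul,
    RingHom.mapMatrix_apply]
  ext i j
  rw [Matrix.map_apply, Matrix.zero_apply, Ideal.Quotient.eq_zero_iff_mem]
  exact LowerB.pow_entry_mem hsq n i j

/-- A prime `p ≠ 3` in the maximal ideal keeps `3` out of it. -/
private theorem three_notMem_maximalIdeal {R : Type} [CommRing R] [IsLocalRing R] {p : ℕ}
    (hp : p.Prime) (hp3 : p ≠ 3) (hpR : (p : R) ∈ IsLocalRing.maximalIdeal R) :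
    (3 : R) ∉ IsLocalRing.maximalIdeal R := by
  intro h3
  have hcop : Nat.Coprime 3 p := (Nat.coprime_primes Nat.prime_three hp).mpr hp3.symm
  obtain ⟨u, v, huv⟩ := Nat.isCoprime_iff_coprime.mpr hcop
  refine (IsLocalRing.maximalIdeal.isMaximal R).ne_top ((Ideal.eq_top_iff_one _).mpr ?_)
  have := congrArg (fun z : ℤ => (z : R)) huv
  push_cast at this
  rw [← this]
  exact add_mem (Ideal.mul_mem_left _ _ h3) (Ideal.mul_mem_left _ _ hpR)

/-- Residually unipotent inertia at `2` is unipotent, for `p ≥ 5`. -/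
theorem trace_det_of_residually_unipotent {R : Type} [CommRing R] [IsDomain R]
    [IsDiscreteValuationRing R] {A : ValuationSubring QBar} (hA : A.LiesOverPrime 2) {p : ℕ}
    (hp : p.Prime) (hp5 : 5 ≤ p) (hpR : (p : R) ∈ IsLocalRing.maximalIdeal R)
    (ρ : GQ →* Matrix (Fin 2) (Fin 2) R)
    (hcont : ∀ n : ℕ, ∃ L : IntermediateField ℚ QBar, FiniteDimensional ℚ L ∧
      ∀ σ : GQ, (∀ x ∈ L, σ x = x) → ∀ i j, (ρ σ - 1) i j ∈ IsLocalRing.maximalIdeal R ^ n)
    (hres : ∀ σ ∈ A.inertiaSubgroupIn ℚ, (ρ σ).trace - 2 ∈ IsLocalRing.maximalIdeal R ∧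
      (ρ σ).det - 1 ∈ IsLocalRing.maximalIdeal R)
    {σ : GQ} (hσ : σ ∈ A.inertiaSubgroupIn ℚ) : (ρ σ).trace = 2 ∧ (ρ σ).det = 1 := by
  set 𝔪 := IsLocalRing.maximalIdeal R
  obtain ⟨φ, hφ⟩ := Arith.exists_isFrobeniusAt hA Nat.prime_two
  obtain ⟨hν, htriv⟩ := tameTrivial_frobenius_conj hφ hσ
  set ν := φ * σ * φ⁻¹ * (σ ^ 2)⁻¹ with hνdef
  -- the tame relation: `ν` has trivial tame characters and its image modulo each power of `𝔪`
  -- has `p`-power order, so the image is one
  have hone : ρ ν = 1 := by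
    refine InertiaTW.eq_of_forall_mk_eq fun n => ?_
    rw [map_one]
    obtain ⟨L, hL, hL'⟩ := hcont n
    obtain ⟨ht, hd⟩ := hres ν hν
    have : Fact p.Prime := ⟨hp⟩
    obtain ⟨k, hk⟩ := exists_pow_prime_pow_mk_eq_one hpR ht hd n
    refine Assembly.eq_one_of_tameTrivial ((Ideal.Quotient.mk _).mapMatrix.toMonoidHom.comp ρ)
      ⟨L, hL, fun τ hτ => ?_⟩ hA Nat.prime_two hν htriv (n := p ^ k) (fun h => ?_) hk
    · exact (InertiaTW.mapMatrix_mk_eq_one_iff _ _).mpr (hL' τ hτ)
    · have := (Nat.prime_dvd_prime_iff_eq Nat.prime_two hp).mp (Nat.prime_two.dvd_of_dvd_pow h)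
      omega
  -- so `X = ρ σ` is conjugate to its square: take determinants, then traces
  set X := ρ σ
  have hrel : ρ φ * X * ρ φ⁻¹ = X * X := by
    rw [← map_mul, ← map_mul, ← map_mul,
      show φ * σ * φ⁻¹ = ν * (σ * σ) by rw [hνdef, ← pow_two]; group, map_mul, hone, one_mul]
  have hinv : ρ φ⁻¹ * ρ φ = 1 := by rw [← map_mul, inv_mul_cancel, map_one]
  obtain ⟨ht, hd⟩ := hres σ hσ
  have hd1 : X.det = 1 := by
    have hu : IsUnit X.det := IsLocalRing.notMem_maximalIdeal.mp fun hm =>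
      (IsLocalRing.maximalIdeal.isMaximal R).ne_top ((Ideal.eq_top_iff_one _).mpr (by
        have h' := sub_mem hm hd
        rwa [sub_sub_cancel] at h'))
    have e := congrArg Matrix.det hrel
    rw [Matrix.det_mul_comm, ← mul_assoc, hinv, one_mul, Matrix.det_mul] at e
    exact hu.mul_left_cancel (by rw [← e, mul_one])
  refine ⟨?_, hd1⟩
  have e := congrArg Matrix.trace hrel
  rw [Matrix.trace_mul_comm, ← mul_assoc, hinv, one_mul] at e
  have e2 : (X * X).trace = X.trace ^ 2 - 2 * X.det := by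
    simp [Matrix.trace_fin_two, Matrix.det_fin_two, Matrix.mul_apply, Fin.sum_univ_two]
    ring
  rw [e2, hd1] at e
  have hprod : (X.trace - 2) * (X.trace + 1) = 0 := by linear_combination -e
  rcases mul_eq_zero.mp hprod with h | h
  · exact sub_eq_zero.mp h
  · refine absurd ?_ (three_notMem_maximalIdeal hp (by omega) hpR)
    have := neg_mem ht
    rwa [eq_neg_of_add_eq_zero_left h, show -(-(1 : R) - 2) = 3 by ring] at this

/-- A residual characteristic polynomial `(T - 1) ^ 2` gives trace and determinant congruent to `2`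
and `1`. -/
private theorem trace_det_mem_of_map_charPoly {R k : Type} [CommRing R] [IsLocalRing R] [Field k]
    (ψ : IsLocalRing.ResidueField R →+* k) {t d : R}
    (h : (X ^ 2 - C t * X + C d).map (ψ.comp (IsLocalRing.residue R)) = (X - C 1) ^ 2) :
    t - 2 ∈ IsLocalRing.maximalIdeal R ∧ d - 1 ∈ IsLocalRing.maximalIdeal R := by
  rw [show ((X : k[X]) - C 1) ^ 2 = X ^ 2 - C 2 * X + C 1 by
    rw [show (2 : k) = 1 + 1 by norm_num, map_add, map_one]; ring] at h
  have h0 := congrArg (fun f => Polynomial.coeff f 0) h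
  have h1 := congrArg (fun f => Polynomial.coeff f 1) h
  simp [coeff_X_pow, coeff_one, map_ofNat] at h0 h1
  simp only [← IsLocalRing.residue_eq_zero_iff, map_sub, map_one, map_ofNat, sub_eq_zero]
  exact ⟨ψ.injective (by rw [map_ofNat]; simpa using h1),
    ψ.injective (by rw [map_one]; simpa using h0)⟩

/-- A homomorphism from a domain finite over `ℤ` to a domain of characteristic zero is
injective. -/
private theorem injective_of_finite {A O : Type*} [CommRing A] [IsDomain A] [Module.Finite ℤ A]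
    [CommRing O] [IsDomain O] [CharZero O] (θ : A →+* O) : Function.Injective θ := by
  rw [RingHom.injective_iff_ker_eq_bot]
  have := RingHom.ker_isPrime θ
  refine Ideal.eq_bot_of_comap_eq_bot (R := ℤ) ?_
  rw [eq_bot_iff]
  intro n hn
  rw [Ideal.mem_comap, RingHom.mem_ker, eq_intCast, map_intCast, Int.cast_eq_zero] at hn
  exact hn

/-- The characteristic polynomial of an endomorphism of a free module of rank two. -/
private theorem charpoly_eq_of_basis {O V : Type*} [CommRing O] [Nontrivial O] [AddCommGroup V]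
    [Module O V] [Module.Free O V] [Module.Finite O V] (b : Module.Basis (Fin 2) O V)
    (f : V →ₗ[O] V) :
    LinearMap.charpoly f = X ^ 2 - C (LinearMap.trace O V f) * X + C (LinearMap.det f) := by
  rw [← LinearMap.charpoly_toMatrix f b, Matrix.charpoly_fin_two,
    ← LinearMap.trace_eq_matrix_trace, LinearMap.det_toMatrix]

variable {P : FreyPackage} [Fact P.p.Prime]

/-- A congruent newform whose level is not divisible by `8` has level not divisible by `4`. -/
theorem not_four_dvd_of_congruent {S : Finset ℕ} {M : ℕ} [NeZero M]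
    {g : CuspForm (Gamma0 M) 2} (hg : g.IsNewform)
    (hcongr : IsCongruentForm S (freyAbar P (ZMod P.p)) g) (h8 : ¬ 8 ∣ M) : ¬ 4 ∣ M := by
  classical
  intro h4
  have hp5 := P.hp5
  obtain ⟨-, φ, hφ⟩ := hcongr
  have : CharP (AlgebraicClosure (ZMod P.p)) P.p :=
    charP_of_injective_algebraMap (algebraMap (ZMod P.p) _).injective P.p
  -- the eigen character of `g` lifts `φ` to a complete discrete valuation ring `O'`
  obtain ⟨θ₀, hθ₀⟩ := GaloisReps.exists_eigenform_character hg.1
  have hint : ∀ t, ConductorLevel.eigenChar hg.1 (∅ : Set ℕ) t ∈ integralClosure ℤ ℂ := fun t =>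
    ConductorLevel.eigenChar_range_le hg.1 (integralClosure ℤ ℂ)
      (fun ℓ hℓ _ => hθ₀ ℓ hℓ ▸ (θ₀ (HeckeDuality.heckeOp M 2 ℓ hℓ)).2) ⟨t, rfl⟩
  let θI : GaloisReps.FullHecke M →+* integralClosure ℤ ℂ :=
    (ConductorLevel.eigenChar hg.1 (∅ : Set ℕ)).codRestrict (integralClosure ℤ ℂ) hint
  have : Module.Finite ℤ (GaloisReps.FullHecke M) := IntegralStructure.heckeAlgebra_finite M 2 ∅
  have : Module.Finite ℤ θI.range :=
    Module.Finite.of_surjective θI.rangeRestrict.toIntAlgHom.toLinearMap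
      θI.rangeRestrict_surjective
  obtain ⟨O', i1, i2, i3, i4, i5, hpO, θA, ψ, hψ⟩ :=
    GaloisReps.exists_lift_char (p := P.p) (A := θI.range) (φ.comp θI.range.subtype)
  have hθA : Function.Injective θA := injective_of_finite θA
  let θ : GaloisReps.FullHecke M →+* O' := θA.comp θI.rangeRestrict
  obtain ⟨ι⟩ := GaloisReps.exists_padicHom O' hpO
  let D := GaloisReps.modelOfCongruence (GaloisReps.eichlerShimuraCongruence M P.p)
  let : Algebra (IsLocalRing.ResidueField O') (AlgebraicClosure (ZMod P.p)) := ψ.toAlgebra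
  let ρO := D.rep ι θ hpO
  let ρ' := ρO.residual.baseChange (AlgebraicClosure (ZMod P.p))
  -- its reduction has the characteristic polynomials of the Frey representation
  have hch : ∀ τ : GQ, LinearMap.charpoly (ρ'.ρ τ) =
      (LinearMap.charpoly (ρO.ρ τ)).map (ψ.comp (IsLocalRing.residue O')) := fun τ => by
    show LinearMap.charpoly (((ρO.ρ τ).baseChange (IsLocalRing.ResidueField O')).baseChange
      (AlgebraicClosure (ZMod P.p))) = _
    rw [LinearMap.charpoly_baseChange, LinearMap.charpoly_baseChange, Polynomial.map_map]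
    rfl
  have hall := charpoly_eq_of_frobenius ρ'
    ((freyRho P (ZMod P.p)).baseChange (AlgebraicClosure (ZMod P.p)))
    (S ∪ insert P.p (M.primeFactors ∪ P.freyCurveInt.Δ.natAbs.primeFactors))
    (fun ℓ hℓ hℓT B hB τ hτ => by
      simp only [Finset.mem_union, Finset.mem_insert, not_or] at hℓT
      have hℓM : ¬ ℓ ∣ M := fun h =>
        hℓT.2.2.1 (Nat.mem_primeFactors.mpr ⟨hℓ, h, NeZero.ne M⟩)
      have hgood : P.freyCurveInt.IsGoodPrimeFor ℓ := fun h => hℓT.2.2.2
        (Nat.mem_primeFactors.mpr ⟨hℓ, Int.natCast_dvd.mp h,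
          Int.natAbs_ne_zero.mpr (EC.Reduction.Frey.Δ_ne_zero P)⟩)
      have hNp : ¬ ℓ ∣ M * P.p := fun h => (hℓ.dvd_mul.mp h).elim hℓM fun h' =>
        hℓT.2.1 ((Nat.prime_dvd_prime_iff_eq hℓ P.pp).mp h')
      rw [hch, show LinearMap.charpoly (ρO.ρ τ) = _ from
        D.charpoly_eigenAction_frobenius ι θ hpO hℓ hNp hB hτ]
      show _ = LinearMap.charpoly (((freyRho P (ZMod P.p)).ρ τ).baseChange
        (AlgebraicClosure (ZMod P.p)))
      rw [LinearMap.charpoly_baseChange, charpoly_freyRho_frobenius hℓ hgood hℓT.2.1 hB hτ]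
      have ha : ((θI (HeckeDuality.heckeOp M 2 ℓ hℓ) : integralClosure ℤ ℂ) : ℂ) = qCoeff g ℓ := by
        show ConductorLevel.eigenChar hg.1 (∅ : Set ℕ) _ = _
        rw [HeckeDuality.heckeOp, dif_neg hℓM]
        exact ConductorLevel.eigenChar_T hg.1 hℓ hℓM _
      have e : ψ (IsLocalRing.residue O' (θ (HeckeDuality.heckeOp M 2 ℓ hℓ))) =
          algebraMap (ZMod P.p) _ (freyAbar P (ZMod P.p) ℓ) := by
        rw [← hφ ℓ hℓ hℓT.1 _ ha]
        exact RingHom.congr_fun hψ _
      simp [e])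
  -- inertia at two is residually unipotent
  let b := Module.finBasisOfFinrankEq O' ρO.V ρO.finrank_eq
  let ρm : GQ →* Matrix (Fin 2) (Fin 2) O' := (LinearMap.toMatrixAlgEquiv b).toMonoidHom.comp ρO.ρ
  have htr : ∀ τ, (ρm τ).trace = LinearMap.trace O' _ (ρO.ρ τ) := fun τ =>
    (LinearMap.trace_eq_matrix_trace _ b _).symm
  have hdt : ∀ τ, (ρm τ).det = LinearMap.det (ρO.ρ τ) := fun τ => LinearMap.det_toMatrix b _
  have hcont : ∀ n : ℕ, ∃ L : IntermediateField ℚ QBar, FiniteDimensional ℚ L ∧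
      ∀ σ : GQ, (∀ x ∈ L, σ x = x) → ∀ i j, (ρm σ - 1) i j ∈ IsLocalRing.maximalIdeal O' ^ n :=
    Deform.isCont_matOf ρO b
  have hcp : ∀ τ, LinearMap.charpoly (ρO.ρ τ) =
      X ^ 2 - C (LinearMap.trace O' _ (ρO.ρ τ)) * X + C (LinearMap.det (ρO.ρ τ)) := fun τ =>
    charpoly_eq_of_basis b (ρO.ρ τ)
  have hres : ∀ A : ValuationSubring QBar, A.LiesOverPrime 2 → ∀ σ ∈ A.inertiaSubgroupIn ℚ,
      (ρm σ).trace - 2 ∈ IsLocalRing.maximalIdeal O' ∧
        (ρm σ).det - 1 ∈ IsLocalRing.maximalIdeal O' := by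
    intro A hA σ hσ
    have hfrey : LinearMap.charpoly (ρ'.ρ σ) = LinearMap.charpoly
        (((freyRho P (ZMod P.p)).ρ σ).baseChange (AlgebraicClosure (ZMod P.p))) := hall σ
    rw [hch, LinearMap.charpoly_baseChange, charpoly_freyRho_inertia Nat.prime_two (by omega) hA hσ,
      hcp, Polynomial.map_pow, Polynomial.map_sub, map_X, map_C, map_one] at hfrey
    rw [htr, hdt]
    exact trace_det_mem_of_map_charPoly ψ hfrey
  -- hence unipotent
  have hU : ρO.IsUnipotentOnInertiaAt 2 := fun A hA σ hσ => by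
    obtain ⟨h1, h2⟩ := trace_det_of_residually_unipotent hA P.pp hp5 hpO ρm hcont (hres A hA) hσ
    rw [hcp, ← htr, ← hdt, h1, h2, map_one, show (2 : O') = 1 + 1 by norm_num, map_add, map_one]
    ring
  -- `4` exactly divides `M`, so the Carayol bound forbids this
  obtain ⟨M', hM'⟩ := h4
  have : NeZero M' := ⟨fun h => NeZero.ne M (by rw [hM', h, mul_zero])⟩
  have hodd : ¬ 2 ∣ M' := fun ⟨c, hc⟩ => h8 ⟨c, by rw [hM', hc]; ring⟩
  have : Fact (Nat.Prime 2) := ⟨Nat.prime_two⟩
  refine Carayol.not_isUnipotentOnInertiaAt (by omega) (q := 2) (M := M')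
    (by rw [hM']; ring) Nat.prime_two (Carayol.fixedNewTorsionBound 2 M' Nat.prime_two hodd)
    (by omega) hg ι θ hpO (fun b hb => ?_) hU
  have h1 : θI.rangeRestrict b = 0 := hθA (by rw [map_zero]; exact hb)
  exact congrArg (fun x : θI.range => ((x : integralClosure ℤ ℂ) : ℂ)) h1

end Fermat.Agent.RT.LowerP

end
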