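import Fermat.Agent.RT.LowerP.Congruent
import Fermat.Agent.RT.LowerP.NotFour
import Fermat.Agent.RT.Frey.Inputs

/-!
# Level lowering at `p` from flat classes without trivial quotient

`lowerAtP_of_flat`: given `FlatNoTrivialQuotient`, the prime `p` can be removed from a conductor
level at which the irreducible mod `p` representation of a Frey package is modular
(`LowerAtPInput`). It is used in `RT/LowerP/FlatInput`. The proof:

1. The level is `2 p m` with `m` odd and prime to `p`; it is raised to `4 p m`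
   (`RT/LowerP/Congruent`).
2. If there were no congruent form of level `4 m`, the residual subgroup of the Jacobian would
   consist of flat classes and have an invariant functional (`modularRepOfLevel_of_flat`).
3. From `4 m` one descends to a divisor of `2 m`: the level of a congruent newform is not
   divisible by four (`RT/LowerP/NotFour`).

## References

* K. Ribet, *On modular representations of Gal(Q̄/Q) arising from modular forms*, Invent. Math.
  (1990).
* H. Darmon, F. Diamond, R. Taylor, *Fermat's Last Theorem* (1995).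

At the key step finiteness at `p` is used through Kummer functions on the reduction of the curve
of level `p M` (`RT/MazurP`), in place of Néron models and their component groups.
-/

set_option autoImplicit false

noncomputable section

open WeierstrassCurve WeierstrassCurve.Affine.Point
open CongruenceSubgroup ModularFormClass
open ModularCurve AlgebraicCurve Fermat.Agent.Semistable

namespace Fermat.Agent.RT.LowerP

open Arith (QBar GQ)

/-! ## The flat input -/

/-- For `p ≥ 5` and `4 ∣ M` prime to `p`: a group of flat classes at `p` on the Jacobian of level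
`p M`, stable under inertia at `p`, has no nonzero inertia-invariant functional to `ZMod p`. -/
def FlatNoTrivialQuotient : Prop :=
  ∀ (A : ValuationSubring QBar) (M p : ℕ) [NeZero M] [Fact p.Prime] (hpM : ¬ p ∣ M),
    A.LiesOverPrime p → 4 ∣ M → 5 ≤ p → ∀ H : AddSubgroup (JZero (p * M)),
      ∀ hstab : ∀ τ ∈ A.inertiaSubgroupIn ℚ, ∀ y ∈ H, τ • y ∈ H,
        (∀ y ∈ H, OrdinaryAtP.IsFlatClass A M p hpM y) →
          ∀ π : H →+ ZMod p,
            (∀ τ (hτ : τ ∈ A.inertiaSubgroupIn ℚ) (y : H),
              π ⟨τ • (y : JZero (p * M)), hstab τ hτ y y.2⟩ = π y) → π = 0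

/-! ## Removing `p` at a level divisible by four -/

variable {P : FreyPackage} [Fact P.p.Prime]

/-- For `p ∣ a b c` and `4 ∣ M` prime to `p`, a congruent form of level `p M` gives one of level
`M`. -/
theorem modularRepOfLevel_of_flat (hflat : FlatNoTrivialQuotient)
    (hirr : GaloisRepIsIrreducible (K := AlgebraicClosure ℚ) ℚ P.freyCurve P.p)
    (habc : (P.p : ℤ) ∣ P.a * P.b * P.c) {M : ℕ} [NeZero M] (h4 : 4 ∣ M) (hpM : ¬ P.p ∣ M)
    {S : Finset ℕ} (h : IsCongruentLevel S (Assembly.freyAbar P (ZMod P.p)) (P.p * M)) :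
    P.ModularRepOfLevel M := by
  have hp : P.p.Prime := Fact.out
  obtain ⟨R⟩ := exists_residualSubgroup hirr h
  obtain ⟨A, hA⟩ := Arith.exists_liesOverPrime hp
  have : CharP (Res A) P.p := Arith.residueField_charP hA hp
  have hM : (M : Res A) ≠ 0 := natCast_res_ne_zero hA hpM
  have := isFunctionField_KM A hM
  by_cases hform : HasForm P.p M (FreyGood P (P.p * M)) (freyA P)
  · obtain ⟨g, hg, 𝔪, h𝔪, hp𝔪, hcong⟩ := hform
    refine ⟨g, P.freyCurveInt, 𝔪, hg, ⟨1, by rw [one_smul, EC.Reduction.Frey.freyCurve_eq_map]⟩,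
      h𝔪, hp𝔪, fun ℓ hℓ hgood hℓM hℓp => hcong ℓ hℓ ⟨fun hd => ?_, hgood⟩⟩
    have hne : ¬ ℓ ∣ P.p := fun h => hℓp ((Nat.prime_dvd_prime_iff_eq hℓ hp).mp h)
    exact hℓ.not_dvd_mul (hℓ.not_dvd_mul hne hℓM) hne hd
  -- otherwise the residual subgroup is of flat classes and has an invariant functional
  exfalso
  have C : Ctx A P.p M (FreyGood P (P.p * M)) (freyA P) :=
    { hA := hA, hp3 := le_trans (by norm_num) P.hp5, hpM := hpM
      hE := RedTorsion.no_root_sq_add_one (Or.inl rfl) h4
      hG := fun l _ hGl hd => hGl.1 (dvd_mul_of_dvd_left hd _)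
      exists_ne := exists_freyA_ne P hirr (mul_ne_zero hp.ne_zero (NeZero.ne M)) }
  obtain ⟨π, hπ, hinv⟩ := R.exists_functional hA habc
  exact hπ (hflat A M P.p hpM hA h4 P.hp5 R.U (fun τ _ y hy => R.stable τ y hy)
    (fun y hy => R.isFlatClass hA habc C hform hy) π hinv)

/-! ## Lowering the level -/

omit [Fact P.p.Prime] in
/-- **Lowering the level at `p`.** -/
theorem lowerAtP_of_flat (hflat : FlatNoTrivialQuotient) : Frey.LowerAtPInput := by
  intro P N hcond hpN hirr hmod
  classical
  have : Fact P.p.Prime := ⟨P.pp⟩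
  have hp5 := P.hp5
  have hN0 : N ≠ 0 := hcond.pos.ne'
  have : NeZero N := ⟨hN0⟩
  have hN := isCongruentLevel_primeFactors hmod
  -- the level is `2 p m'` with `m'` odd and prime to `p`; raise it to `4 p m'`
  obtain ⟨m, rfl⟩ := two_dvd_level hirr hN
  have h2p : ¬ P.p ∣ 2 := fun h => by have := Nat.le_of_dvd two_pos h; omega
  obtain ⟨m', rfl⟩ := (P.pp.dvd_mul.mp hpN).resolve_left h2p
  have hsq := hcond.squarefree
  have hpm : ¬ P.p ∣ m' := P.pp.coprime_iff_not_dvd.mp
    (Nat.coprime_of_squarefree_mul (hsq.squarefree_of_dvd (dvd_mul_left _ 2)))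
  have h2m : ¬ 2 ∣ m' := fun h => Nat.prime_two.coprime_iff_not_dvd.mp
    (Nat.coprime_of_squarefree_mul hsq) (h.mul_left _)
  have hm0 : m' ≠ 0 := fun h => hN0 (by rw [h]; ring)
  set M := 4 * m' with hMdef
  have : NeZero M := ⟨mul_ne_zero (by norm_num) hm0⟩
  have h4M : 4 ∣ M := dvd_mul_right _ _
  have hpM : ¬ P.p ∣ M := fun h => (P.pp.dvd_mul.mp h).elim
    (fun h' => h2p (P.pp.dvd_of_dvd_pow (show P.p ∣ 2 ^ 2 from h'))) hpm
  obtain ⟨g, hg, φ, hφ⟩ := hN
  obtain ⟨g', hg', hgg'⟩ := exists_eigenform_levelIncl (N := 2 * (P.p * m')) (L := P.p * M)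
    ⟨2, by rw [hMdef]; ring⟩ (fun q hq hd => by
      rw [show P.p * M = 2 * (2 * (P.p * m')) by rw [hMdef]; ring] at hd
      rcases hq.dvd_mul.mp hd with h | h
      · exact dvd_mul_of_dvd_left h _
      · exact h) hg
  -- flatness removes `p`
  have hmodM := modularRepOfLevel_of_flat hflat hirr (hcond.p_dvd_abc hpN) h4M hpM
    (S := _) ⟨g', hg', φ, fun ℓ hℓ hℓS a ha => hφ ℓ hℓ hℓS a (ha.trans (hgg' ℓ))⟩
  -- descend from `4 m'` to a divisor of `2 m'`
  have hMc := isCongruentLevel_primeFactors hmodM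
  obtain ⟨R, hRM, h, hh, hcongr⟩ := Assembly.exists_congruent_newform (NeZero.ne M) hMc
  have : NeZero R := ⟨fun h0 => NeZero.ne M (Nat.eq_zero_of_zero_dvd (h0 ▸ hRM))⟩
  have h4R := not_four_dvd_of_congruent hh hcongr fun h8 => h2m (by
    obtain ⟨c, hc⟩ := h8.trans hRM
    exact ⟨c, by omega⟩)
  have hR2 : R ∣ 2 * m' := dvd_two_mul_of_dvd_four_mul (hMdef ▸ hRM) h4R
  refine ⟨R, hR2.trans (Nat.mul_dvd_mul_left 2 (dvd_mul_left _ _)), fun hpR => ?_,
    Assembly.modularRepOfLevel_of_congruent GaloisReps.models hcongr⟩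
  exact (P.pp.dvd_mul.mp (hpR.trans hR2)).elim h2p hpm

end Fermat.Agent.RT.LowerP

end
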